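import Fermat.Agent.OrdinaryAtP.Coord.Families

/-!
# Coordinates of subspaces modulo the torus

A `d`-dimensional space of vectors has a chart: the rows which are the identity on `d` chosen
places. Rescaling the places by a torus changes the chart by monomials. If the nonzero entries of
the chart connect all places, the chart can be normalised along fixed routes; the result depends
only on the space modulo the torus and commutes with ring homomorphisms.
-/

set_option autoImplicit false

noncomputable section

namespace Fermat.Agent.OrdinaryAtP.Coord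

open Module Matrix

variable {κ : Type} {d : ℕ} (I : Fin d → κ)

section Ring

variable {R : Type*} [CommRing R] {S : Type*} [CommRing S]

/-- The minor at the chosen places. -/
def minorAt (P : Fin d → κ → R) : Matrix (Fin d) (Fin d) R := Matrix.of fun i j => P i (I j)

/-- The chart. -/
def chart (P : Fin d → κ → R) : Fin d → κ → R :=
  fun i k => ∑ j, (minorAt I P)⁻¹ i j * P j k

variable (E : Fin d → κ → Prop) (root : κ)

/-- Routes along the edges `I i — k`. -/
inductive Route : κ → Type
  | nil : Route root
  | fwd {i : Fin d} {k : κ} : E i k → Route (I i) → Route k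
  | back {i : Fin d} {k : κ} : E i k → Route k → Route (I i)

variable {I E root}

/-- The product of the entries along a route. -/
def Route.pot (C : Fin d → κ → R) : ∀ {k : κ}, Route I E root k → R
  | _, .nil => 1
  | _, @Route.fwd _ _ _ _ _ i k _ r => r.pot C * C i k
  | _, @Route.back _ _ _ _ _ i k _ r => r.pot C * Ring.inverse (C i k)

variable (I E)

/-- The chart exists and its edges are units. -/
def GoodRows (P : Fin d → κ → R) : Prop :=
  IsUnit (minorAt I P).det ∧ ∀ i k, E i k → IsUnit (chart I P i k)

variable {I E}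

/-- The normalised chart. -/
def normC (rt : ∀ k, Route I E root k) (P : Fin d → κ → R) : Fin d → κ → R :=
  fun i k => chart I P i k * (rt (I i)).pot (chart I P) * Ring.inverse ((rt k).pot (chart I P))

theorem Route.isUnit_pot {C : Fin d → κ → R} (hC : ∀ i k, E i k → IsUnit (C i k)) :
    ∀ {k : κ} (r : Route I E root k), IsUnit (r.pot C)
  | _, .nil => isUnit_one
  | _, @Route.fwd _ _ _ _ _ i k h r => (r.isUnit_pot hC).mul (hC i k h)
  | _, @Route.back _ _ _ _ _ i k h r => (r.isUnit_pot hC).mul (isUnit_ringInverse.mpr (hC i k h))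

theorem map_ringInverse (φ : R →+* S) {x : R} (hx : IsUnit x) :
    φ (Ring.inverse x) = Ring.inverse (φ x) := by
  obtain ⟨u, rfl⟩ := hx
  rw [Ring.inverse_unit]
  exact (Ring.inverse_unit (Units.map φ.toMonoidHom u)).symm

theorem Route.map_pot (φ : R →+* S) {C : Fin d → κ → R} (hC : ∀ i k, E i k → IsUnit (C i k)) :
    ∀ {k : κ} (r : Route I E root k), φ (r.pot C) = r.pot fun i k => φ (C i k)
  | _, .nil => map_one φ
  | _, @Route.fwd _ _ _ _ _ i k h r => by rw [Route.pot, Route.pot, map_mul, r.map_pot φ hC]
  | _, @Route.back _ _ _ _ _ i k h r => by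
    rw [Route.pot, Route.pot, map_mul, r.map_pot φ hC, map_ringInverse φ (hC i k h)]

theorem map_chart (φ : R →+* S) {P : Fin d → κ → R} (h : IsUnit (minorAt I P).det) :
    chart I (fun i k => φ (P i k)) = fun i k => φ (chart I P i k) := by
  have hinv : (minorAt I fun i k => φ (P i k))⁻¹ = (minorAt I P)⁻¹.map φ := by
    refine Matrix.inv_eq_left_inv ?_
    show (minorAt I P)⁻¹.map φ * (minorAt I P).map φ = 1
    rw [← Matrix.map_mul, Matrix.nonsing_inv_mul _ h, Matrix.map_one _ (map_zero φ) (map_one φ)]
  funext i k
  simp [chart, hinv]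

theorem GoodRows.map (φ : R →+* S) {P : Fin d → κ → R} (h : GoodRows I E P) :
    GoodRows I E fun i k => φ (P i k) := by
  refine ⟨?_, fun i k he => ?_⟩
  · rw [show minorAt I (fun i k => φ (P i k)) = φ.mapMatrix (minorAt I P) from rfl,
      ← RingHom.map_det]
    exact h.1.map φ
  · rw [map_chart φ h.1]
    exact (h.2 i k he).map φ

/-- Normalised charts commute with ring homomorphisms. -/
theorem map_normC (φ : R →+* S) (rt : ∀ k, Route I E root k) {P : Fin d → κ → R}
    (h : GoodRows I E P) : normC rt (fun i k => φ (P i k)) = fun i k => φ (normC rt P i k) := by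
  funext i k
  rw [normC, normC, map_chart φ h.1, map_mul, map_mul, Route.map_pot φ h.2,
    map_ringInverse φ (Route.isUnit_pot h.2 _), Route.map_pot φ h.2]

/-- Goodness is detected by residues. -/
theorem goodRows_of_residue {K : Type*} [Field K] {ρ : R →+* K} (hρ : ∀ r, ρ r ≠ 0 → IsUnit r)
    {P : Fin d → κ → R} (h : GoodRows I E fun i k => ρ (P i k)) : GoodRows I E P := by
  have hdet : IsUnit (minorAt I P).det := hρ _ (by
    rw [RingHom.map_det]
    exact h.1.ne_zero)
  refine ⟨hdet, fun i k he => hρ _ ?_⟩
  have := (h.2 i k he).ne_zero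
  rwa [map_chart ρ hdet] at this

end Ring

section Field

variable {F : Type*} [Field F] {I} {E : Fin d → κ → Prop} {root : κ}

theorem chart_apply_self {P : Fin d → κ → F} (h : IsUnit (minorAt I P).det) (i j : Fin d) :
    chart I P i (I j) = if i = j then 1 else 0 := by
  have := congrFun₂ (Matrix.nonsing_inv_mul _ h) i j
  rw [Matrix.mul_apply, Matrix.one_apply] at this
  exact this

theorem span_chart {P : Fin d → κ → F} (h : IsUnit (minorAt I P).det) :
    Submodule.span F (Set.range (chart I P)) = Submodule.span F (Set.range P) := by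
  refine le_antisymm (Submodule.span_le.mpr ?_) (Submodule.span_le.mpr ?_)
  · rintro _ ⟨i, rfl⟩
    rw [SetLike.mem_coe, Submodule.mem_span_range_iff_exists_fun]
    exact ⟨(minorAt I P)⁻¹ i, funext fun k => by simp [chart, Finset.sum_apply]⟩
  · rintro _ ⟨l, rfl⟩
    rw [SetLike.mem_coe, Submodule.mem_span_range_iff_exists_fun]
    refine ⟨minorAt I P l, funext fun k => ?_⟩
    have := congrFun₂ (show minorAt I P * ((minorAt I P)⁻¹ * Matrix.of P) = Matrix.of P by
      rw [← Matrix.mul_assoc, Matrix.mul_nonsing_inv _ h, Matrix.one_mul]) l k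
    simpa [Matrix.mul_apply, chart, Finset.sum_apply] using this

theorem linearIndependent_of_minor {P : Fin d → κ → F} (h : IsUnit (minorAt I P).det) :
    LinearIndependent F P :=
  LinearIndependent.of_comp (LinearMap.funLeft F F I)
    (Matrix.linearIndependent_rows_iff_isUnit.mpr ((Matrix.isUnit_iff_isUnit_det _).mpr h))

/-- A basis of the same space has the same chart. -/
theorem chart_eq_of_span {P P' : Fin d → κ → F} (h : IsUnit (minorAt I P).det)
    (hP' : LinearIndependent F P')
    (hspan : Submodule.span F (Set.range P') = Submodule.span F (Set.range P)) :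
    IsUnit (minorAt I P').det ∧ chart I P' = chart I P := by
  choose G hG using fun i : Fin d => (Submodule.mem_span_range_iff_exists_fun F).mp
    (hspan ▸ Submodule.subset_span ⟨i, rfl⟩ : P' i ∈ Submodule.span F (Set.range P))
  set Gm : Matrix (Fin d) (Fin d) F := Matrix.of G with hGm
  have hPG : (Matrix.of P' : Matrix (Fin d) κ F) = Gm * Matrix.of P := by
    ext i k
    simp only [Matrix.mul_apply, hGm, Matrix.of_apply, ← hG i, Finset.sum_apply, Pi.smul_apply,
      smul_eq_mul]
  have hGu : IsUnit Gm := by
    refine Matrix.linearIndependent_rows_iff_isUnit.mp (Fintype.linearIndependent_iff.mpr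
      fun g hg => Fintype.linearIndependent_iff.mp hP' g ?_)
    funext k
    have hg' : ∀ j, ∑ i, g i * G i j = 0 := fun j => by
      simpa [Finset.sum_apply, hGm] using congrFun hg j
    simp only [Finset.sum_apply, Pi.smul_apply, smul_eq_mul, ← hG, Finset.mul_sum, ← mul_assoc]
    rw [Finset.sum_comm]
    simp only [← Finset.sum_mul, hg', zero_mul, Finset.sum_const_zero, Pi.zero_apply]
  rw [Matrix.isUnit_iff_isUnit_det] at hGu
  have hminor : minorAt I P' = Gm * minorAt I P := by
    ext i j
    exact congrFun₂ hPG i (I j)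
  refine ⟨by rw [hminor, Matrix.det_mul]; exact hGu.mul h, ?_⟩
  funext i k
  have : (minorAt I P')⁻¹ * Matrix.of P' = (minorAt I P)⁻¹ * Matrix.of P := by
    rw [hminor, Matrix.mul_inv_rev, hPG, Matrix.mul_assoc, ← Matrix.mul_assoc Gm⁻¹,
      Matrix.nonsing_inv_mul _ hGu, Matrix.one_mul]
  exact congrFun₂ this i k

theorem chart_torus {P : Fin d → κ → F} (h : IsUnit (minorAt I P).det) {t : κ → F}
    (ht : ∀ k, t k ≠ 0) :
    IsUnit (minorAt I fun i => t * P i).det ∧
      chart I (fun i => t * P i) = fun i k => chart I P i k * t k / t (I i) := by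
  set D : Matrix (Fin d) (Fin d) F := Matrix.diagonal fun j => t (I j)
  have hm : minorAt I (fun i => t * P i) = minorAt I P * D := by
    ext i j
    simp [minorAt, D, Matrix.mul_diagonal, mul_comm]
  refine ⟨?_, ?_⟩
  · rw [hm, Matrix.det_mul, Matrix.det_diagonal]
    exact h.mul (Finset.prod_ne_zero_iff.mpr fun j _ => ht _).isUnit
  · have hinv : (minorAt I fun i => t * P i)⁻¹ =
        Matrix.diagonal (fun j => (t (I j))⁻¹) * (minorAt I P)⁻¹ := by
      refine Matrix.inv_eq_left_inv ?_
      rw [hm, Matrix.mul_assoc, ← Matrix.mul_assoc _ (minorAt I P), Matrix.nonsing_inv_mul _ h,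
        Matrix.one_mul, Matrix.diagonal_mul_diagonal]
      simp [ht]
    funext i k
    simp only [chart, hinv, Matrix.diagonal_mul, Pi.mul_apply]
    rw [div_eq_mul_inv, Finset.sum_mul, Finset.sum_mul]
    exact Finset.sum_congr rfl fun j _ => by ring

theorem Route.pot_torus {C : Fin d → κ → F} {t : κ → F} (ht : ∀ k, t k ≠ 0) :
    ∀ {k : κ} (r : Route I E root k),
      r.pot (fun i k => C i k * t k / t (I i)) = r.pot C * t k / t root
  | _, .nil => by rw [Route.pot, Route.pot, one_mul, div_self (ht root)]
  | _, @Route.fwd _ _ _ _ _ i k h r => by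
    rw [Route.pot, Route.pot, r.pot_torus ht]
    field_simp [ht]
  | _, @Route.back _ _ _ _ _ i k h r => by
    rw [Route.pot, Route.pot, r.pot_torus ht, Ring.inverse_eq_inv, Ring.inverse_eq_inv, inv_div,
      ← div_div]
    field_simp [ht]

/-- **Invariance**: the normalised chart depends only on the space modulo the torus. -/
theorem normC_eq_of_span {rt : ∀ k, Route I E root k} {P P' : Fin d → κ → F}
    (h : GoodRows I E P) (hP' : LinearIndependent F P') {t : κ → F} (ht : ∀ k, t k ≠ 0)
    (hspan : Submodule.span F (Set.range P') = Submodule.span F (Set.range fun i => t * P i)) :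
    GoodRows I E P' ∧ normC rt P' = normC rt P := by
  obtain ⟨ht1, ht2⟩ := chart_torus h.1 ht
  obtain ⟨hu, hc⟩ := chart_eq_of_span ht1 hP' hspan
  rw [ht2] at hc
  refine ⟨⟨hu, fun i k he => ?_⟩, ?_⟩
  · rw [hc]
    exact (div_ne_zero (mul_ne_zero (h.2 i k he).ne_zero (ht k)) (ht _)).isUnit
  · funext i k
    have h1 := (Route.isUnit_pot h.2 (rt k)).ne_zero
    simp only [normC, hc, Route.pot_torus ht, Ring.inverse_eq_inv]
    field_simp [ht, h1]

/-- The torus taking the space of the rows to the space of their normalised chart. -/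
def normTorus (rt : ∀ k, Route I E root k) (P : Fin d → κ → F) : κ → F :=
  fun k => ((rt k).pot (chart I P))⁻¹

theorem normTorus_ne_zero {rt : ∀ k, Route I E root k} {P : Fin d → κ → F} (h : GoodRows I E P)
    (k : κ) : normTorus rt P k ≠ 0 :=
  inv_ne_zero (Route.isUnit_pot h.2 _).ne_zero

theorem span_normC {rt : ∀ k, Route I E root k} {P : Fin d → κ → F} (h : GoodRows I E P) :
    Submodule.span F (Set.range (normC rt P)) =
      (Submodule.span F (Set.range P)).map (LinearMap.mulLeft F (normTorus rt P)) := by
  rw [← span_chart h.1, Submodule.map_span, ← Set.range_comp]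
  have e : ∀ i, normC rt P i = (rt (I i)).pot (chart I P) •
      (normTorus rt P * chart I P i) := fun i => funext fun k => by
    simp only [normC, normTorus, Ring.inverse_eq_inv, Pi.smul_apply, Pi.mul_apply, smul_eq_mul]
    ring
  refine le_antisymm (Submodule.span_le.mpr ?_) (Submodule.span_le.mpr ?_)
  · rintro _ ⟨i, rfl⟩
    rw [e]
    exact Submodule.smul_mem _ _ (Submodule.subset_span ⟨i, rfl⟩)
  · rintro _ ⟨i, rfl⟩
    have h0 := (Route.isUnit_pot h.2 (rt (I i))).ne_zero
    have : normTorus rt P * chart I P i = ((rt (I i)).pot (chart I P))⁻¹ • normC rt P i := by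
      rw [e, smul_smul, inv_mul_cancel₀ h0, one_smul]
    rw [Function.comp_apply, LinearMap.mulLeft_apply, this]
    exact Submodule.smul_mem _ _ (Submodule.subset_span ⟨i, rfl⟩)

/-- The normalised chart is the identity at the chosen places. -/
theorem minorAt_normC {rt : ∀ k, Route I E root k} {P : Fin d → κ → F} (h : GoodRows I E P) :
    minorAt I (normC rt P) = 1 := by
  ext i j
  have h0 := (Route.isUnit_pot h.2 (rt (I j))).ne_zero
  simp only [minorAt, Matrix.of_apply, normC, chart_apply_self h.1, Ring.inverse_eq_inv,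
    Matrix.one_apply]
  split_ifs with hij
  · subst hij
    rw [one_mul, mul_inv_cancel₀ h0]
  · rw [zero_mul, zero_mul]

theorem linearIndependent_normC {rt : ∀ k, Route I E root k} {P : Fin d → κ → F}
    (h : GoodRows I E P) : LinearIndependent F (normC rt P) :=
  linearIndependent_of_minor (I := I) (by rw [minorAt_normC h, Matrix.det_one]; exact isUnit_one)

variable (I) in
/-- The edges of a chart. -/
def edges (P : Fin d → κ → F) (i : Fin d) (k : κ) : Prop := chart I P i k ≠ 0

theorem goodRows_edges {P : Fin d → κ → F} (h : IsUnit (minorAt I P).det) :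
    GoodRows I (edges I P) P :=
  ⟨h, fun _ _ he => Ne.isUnit he⟩

/-- **Connectivity**: if only constants `c` of the space have `u * c` in it, the edges connect. -/
theorem exists_route {P : Fin d → κ → F} (h : IsUnit (minorAt I P).det) (root : κ) (u : κ → F)
    (h1 : (1 : κ → F) ∈ Submodule.span F (Set.range P))
    (hu : u ∈ Submodule.span F (Set.range P))
    (hc : ∀ c ∈ Submodule.span F (Set.range P), u * c ∈ Submodule.span F (Set.range P) →
      ∃ a : F, c = a • 1) (k : κ) : Nonempty (Route I (edges I P) root k) := by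
  classical
  set S : Set κ := {k | Nonempty (Route I (edges I P) root k)} with hS
  set c : κ → F := fun k => if k ∈ S then 1 else 0 with hcdef
  have key : ∀ x ∈ Submodule.span F (Set.range P), c * x ∈ Submodule.span F (Set.range P) := by
    rw [← span_chart h]
    intro x hx
    refine (?_ : Submodule.span F (Set.range (chart I P)) ≤
      (Submodule.span F (Set.range (chart I P))).comap (LinearMap.mulLeft F c)) hx
    rw [Submodule.span_le]
    rintro _ ⟨i, rfl⟩
    have e : c * chart I P i = c (I i) • chart I P i := funext fun k => by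
      simp only [Pi.mul_apply, Pi.smul_apply, smul_eq_mul]
      by_cases he : chart I P i k = 0
      · rw [he, mul_zero, mul_zero]
      have : k ∈ S ↔ I i ∈ S :=
        ⟨fun ⟨r⟩ => ⟨r.back he⟩, fun ⟨r⟩ => ⟨r.fwd he⟩⟩
      simp only [hcdef, this]
    rw [SetLike.mem_coe, Submodule.mem_comap, LinearMap.mulLeft_apply, e]
    exact Submodule.smul_mem _ _ (Submodule.subset_span ⟨i, rfl⟩)
  have hc1 : c ∈ Submodule.span F (Set.range P) := by simpa using key 1 h1
  obtain ⟨a, ha⟩ := hc c hc1 (by rw [mul_comm]; exact key u hu)
  have hroot : root ∈ S := ⟨Route.nil⟩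
  have ha1 := congrFun ha root
  have hak := congrFun ha k
  by_contra hk
  simp only [hcdef, if_pos hroot, if_neg (show k ∉ S from hk), Pi.smul_apply, Pi.one_apply,
    smul_eq_mul, mul_one] at ha1 hak
  rw [← hak] at ha1
  exact one_ne_zero ha1

end Field

end Fermat.Agent.OrdinaryAtP.Coord

end
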