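import Fermat.Agent.OrdinaryAtP.Coord.Products

/-!
# Translation is bilinear on coordinates

The products of the coordinates of `x` and `y` span, at every pair, the vectors of twice the degree
of the sum of their divisors; the colon space by `j ^ n` has a basis over the algebra of the square
whose normalised chart is the coordinates of `x + y`.
-/

set_option autoImplicit false
set_option synthInstance.maxHeartbeats 400000
set_option maxHeartbeats 1000000
set_option linter.unusedSectionVars false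

noncomputable section

namespace Fermat.Agent.OrdinaryAtP.Coord

open ModularCurve AlgebraicCurve Module
open Fermat.Agent.Semistable Fermat.Agent.RT.Mazur
open Arith (QBar GQ)
open scoped Pointwise

/-- The rows of the colon space at a point, from bounds on the two degrees. -/
theorem spanAt_colon_eq {R : Type*} {K : Type} [CommRing R] [Field K] {ρ : R →+* K}
    (hρ : ∀ r, ρ r ≠ 0 → IsUnit r) {F : Type} [Field F] {κ : Type} [Finite κ] {e d : ℕ}
    {C : Fin e → κ → R} {D : Fin d → κ → R} (hC : LinearIndependent K (rowsAt ρ C))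
    (hD : LinearIndependent K (rowsAt ρ D)) (φ : R →+* F) (u : κ → R) (T : κ → F)
    (hT : ∀ k, T k ≠ 0) {X1 X2 : Submodule F (κ → F)} (h12 : X1 ≤ X2)
    (hrows : ∀ i, rowsAt φ C i ∈ X2.map (LinearMap.mulLeft F T))
    (hX2 : finrank F X2 ≤ e) (hmul : ∀ c ∈ X1, φ ∘ u * c ∈ X2) (hX1 : finrank F X1 = d)
    (hcolon : d ≤ finrank F (colonSp (spanAt φ C) (φ ∘ u)) →
      spanAt φ D = colonSp (spanAt φ C) (φ ∘ u)) :
    spanAt φ D = X1.map (LinearMap.mulLeft F T) := by
  have hC' : spanAt φ C = X2.map (LinearMap.mulLeft F T) :=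
    spanAt_eq hρ hC φ hrows (by rwa [finrank_map_mul _ hT])
  have hle : X1.map (LinearMap.mulLeft F T) ≤ colonSp (spanAt φ C) (φ ∘ u) := by
    rw [hC', colonSp_map_mul _ _ _ hT]
    exact Submodule.map_mono (le_inf h12 hmul)
  have hd : finrank F (X1.map (LinearMap.mulLeft F T)) = d := by rw [finrank_map_mul _ hT, hX1]
  have heq := hcolon (hd ▸ Submodule.finrank_mono hle)
  exact (Submodule.eq_of_le_of_finrank_le (heq ▸ hle) (by rw [finrank_spanAt hρ hD, hd])).symm

variable {A : ValuationSubring QBar} {q : ℕ} [hq : Fact q.Prime] [CharP (Res A) q]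
  {M : ℕ} [NeZero M] [FF.IsFunctionField (Res A) (KM A M)] {h : Setup A M q}
  {G : AddSubgroup (JZero (q * M))} [Finite G]

namespace Frame

variable (F : Frame h G) (hstab : ∀ τ ∈ A.inertiaSubgroupIn ℚ, ∀ y ∈ G, τ • y ∈ G)

include hstab

theorem isUnit_of_res2 (g : F.alg2) (hg : F.res2 hstab g ≠ 0) : IsUnit g :=
  isUnit_of_resFun_ne_zero h.hA _ (adjoin_le_goodFun _ (F.gen2_mem_good hstab)) g hg

/-- `j ^ n` as a vector of invariant integers. -/
theorem exists_jVec : ∃ w : F.Pl → gaussW A,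
    (∀ k, (w k : GField A) = evF A h.hqM F.m₀ (upF M q (jM M) ^ F.n) k) ∧
      ∀ k, resGW A (w k) = evR q F.m₀ (jPow A q F.n) k := by
  obtain ⟨x, hx, hxr⟩ := exists_jPow_fun h F.n
  have hw : ∀ k : F.Pl, evF A h.hqM F.m₀ x.1 k ∈ gaussW A := fun k => by
    refine ⟨(resG_evF h.hqM F.m₀ x k).1, fun τ => ?_⟩
    rw [sigmaG_evF, hx, map_pow, galF_upF_jM]
  refine ⟨fun k => ⟨_, hw k⟩, fun k => by rw [← hx], fun k => ?_⟩
  obtain ⟨hm, e⟩ := resG_evF h.hqM F.m₀ x k
  rw [← hxr]
  exact e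

/-- The residual target in degree `2 n`. -/
abbrev target2 : Submodule (LaurentSeries (Res A)) (F.Pl → LaurentSeries (Res A)) :=
  (evSpan (evR q F.m₀) (Bn A M q h.hqM (F.n + F.n))).map
    (LinearMap.mulLeft (LaurentSeries (Res A)) (F.T0 * F.T0))

/-- Products of coordinates with independent residues spanning the residual target. -/
theorem exists_prodRows : ∃ C : Fin (finrank (Res A) (Bn A M q h.hqM (F.n + F.n))) → F.Pl → F.alg2,
    LinearIndependent (LaurentSeries (Res A)) (rowsAt (F.res2 hstab) C) ∧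
      spanAt (F.res2 hstab) C = F.target2 ∧
        ∀ i, ∃ a b : Fin F.d, ∀ z k, F.val2 z (C i k) = F.delta z.1 a k * F.delta z.2 b k := by
  classical
  let C0 : Fin F.d × Fin F.d → F.Pl → F.alg2 := fun ij k =>
    ⟨F.gen2 (Sum.inl (ij.1, k)), Algebra.subset_adjoin ⟨_, rfl⟩⟩ *
      ⟨F.gen2 (Sum.inr (ij.2, k)), Algebra.subset_adjoin ⟨_, rfl⟩⟩
  have hC0 : rowsAt (F.res2 hstab) C0 = fun ij : Fin F.d × Fin F.d => F.Z0 ij.1 * F.Z0 ij.2 := by
    funext ij k
    simp only [rowsAt, C0, map_mul, Pi.mul_apply]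
    rw [F.res2_gen_inl hstab, F.res2_gen_inr hstab]
  have hTT : ∀ k, (F.T0 * F.T0) k ≠ 0 := fun k => mul_ne_zero (F.T0_ne_zero k) (F.T0_ne_zero k)
  have hall : Submodule.span (LaurentSeries (Res A)) (Set.range (rowsAt (F.res2 hstab) C0)) =
      F.target2 := by
    rw [hC0]
    exact F.span_products
  obtain ⟨S, hSli, hSspan⟩ := exists_subfamily (rowsAt (F.res2 hstab) C0)
    (d := finrank (Res A) (Bn A M q h.hqM (F.n + F.n)))
    (by rw [hall, finrank_map_mul _ hTT, F.finrank_evSpan_two])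
  refine ⟨C0 ∘ S, hSli, ?_, fun i => ⟨(S i).1, (S i).2, fun z k => ?_⟩⟩
  · rw [← hall]
    exact hSspan
  · simp only [Function.comp_apply, C0, map_mul, val2_apply, gen2, Sum.elim_inl, Sum.elim_inr, gen]

/-- Rows over the algebra of the square spanning the colon space of the products by `j ^ n`. -/
theorem exists_colonRows (C : Fin (finrank (Res A) (Bn A M q h.hqM (F.n + F.n))) → F.Pl → F.alg2)
    (hC : LinearIndependent (LaurentSeries (Res A)) (rowsAt (F.res2 hstab) C))
    (hCspan : spanAt (F.res2 hstab) C = F.target2) :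
    ∃ (u : F.Pl → F.alg2) (D2 : Fin F.d → F.Pl → F.alg2),
      (∀ z, F.val2 z ∘ u = evF A h.hqM F.m₀ (upF M q (jM M) ^ F.n)) ∧
      LinearIndependent (LaurentSeries (Res A)) (rowsAt (F.res2 hstab) D2) ∧
      GoodRows F.I F.E D2 ∧
      ∀ z, F.d ≤ finrank (GField A) (colonSp (spanAt (F.val2 z) C) (F.val2 z ∘ u)) →
        spanAt (F.val2 z) D2 = colonSp (spanAt (F.val2 z) C) (F.val2 z ∘ u) := by
  have hJ := F.exists_jVec hstab
  obtain ⟨w, hw, hwr⟩ := hJ
  let u : F.Pl → F.alg2 := fun k => algebraMap (gaussW A) F.alg2 (w k)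
  have hu : F.res2 hstab ∘ u = evR q F.m₀ (jPow A q F.n) := funext fun k =>
    (F.res2_algebraMap hstab (w k)).trans (hwr k)
  have hTT : ∀ k, (F.T0 * F.T0) k ≠ 0 := fun k => mul_ne_zero (F.T0_ne_zero k) (F.T0_ne_zero k)
  have hcolon : colonSp (spanAt (F.res2 hstab) C) (F.res2 hstab ∘ u) =
      (evSpan (evR q F.m₀) (Bn A M q h.hqM F.n)).map
        (LinearMap.mulLeft (LaurentSeries (Res A)) (F.T0 * F.T0)) := by
    rw [hCspan, hu, colonSp_map_mul _ _ _ hTT, F.colon_evSpan_two]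
  have hd : finrank (LaurentSeries (Res A))
      (colonSp (spanAt (F.res2 hstab) C) (F.res2 hstab ∘ u)) = F.d := by
    rewrite [hcolon, finrank_map_mul _ hTT]
    exact F.finrank_evSpan_n
  have hρ := F.isUnit_of_res2 hstab
  have key := exists_colon hρ hC u hd
  obtain ⟨D2, hD2li, hD2span, hD2φ⟩ := key
  refine ⟨u, D2, fun z => funext fun k => ?_, hD2li, ?_, fun z => hD2φ (F.val2 z)⟩
  · exact (F.val2_algebraMap z (w k)).trans (hw k)
  refine goodRows_of_residue (F.isUnit_of_res2 hstab)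
    (normC_eq_of_span (rt := F.rt) F.goodRows0 hD2li hTT ?_).1
  rewrite [show Submodule.span (LaurentSeries (Res A)) (Set.range fun i k => F.res2 hstab (D2 i k)) =
      spanAt (F.res2 hstab) D2 from rfl, hD2span, hcolon, ← F.span_P0, Submodule.map_span,
    ← Set.range_comp]
  rfl

omit hstab in
/-- The vectors of degree `2 n` at a pair. -/
theorem exists_point_pair (x y : G) : ∃ t : F.Pl → GField A, (∀ k, t k ≠ 0) ∧
    (∀ a b : Fin F.d, F.delta x a * F.delta y b ∈
      (EvD h.hqM F.m₀ (((F.D x + F.D y : Divisor.degZero (K := QBar) (F := FB (q * M)))) :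
        Divisor QBar (FB (q * M))) (F.n + F.n)).map (LinearMap.mulLeft (GField A) t)) := by
  obtain ⟨tx, htx, ex⟩ := F.exists_span_delta x
  obtain ⟨ty, hty, ey⟩ := F.exists_span_delta y
  refine ⟨tx * ty, fun k => mul_ne_zero (htx k) (hty k), fun a b => ?_⟩
  obtain ⟨a', ha, ea⟩ : F.delta x a ∈ (EvD h.hqM F.m₀ (F.D x : Divisor QBar (FB (q * M))) F.n).map
      (LinearMap.mulLeft (GField A) tx) := by
    rw [← ex]; exact Submodule.subset_span ⟨_, rfl⟩
  obtain ⟨b', hb, eb⟩ : F.delta y b ∈ (EvD h.hqM F.m₀ (F.D y : Divisor QBar (FB (q * M))) F.n).map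
      (LinearMap.mulLeft (GField A) ty) := by
    rw [← ey]; exact Submodule.subset_span ⟨_, rfl⟩
  rw [AddMemClass.coe_add]
  refine ⟨a' * b', mul_mem_EvD h.hqM F.m₀ ha hb, ?_⟩
  rw [← ea, ← eb]
  simp only [LinearMap.mulLeft_apply]
  ring

/-- At a pair the colon rows span a translate of the vectors of the sum. -/
theorem delta_add_eq (C : Fin (finrank (Res A) (Bn A M q h.hqM (F.n + F.n))) → F.Pl → F.alg2)
    (hC : LinearIndependent (LaurentSeries (Res A)) (rowsAt (F.res2 hstab) C))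
    (hCz : ∀ i, ∃ a b : Fin F.d, ∀ z k, F.val2 z (C i k) = F.delta z.1 a k * F.delta z.2 b k)
    (u : F.Pl → F.alg2) (D2 : Fin F.d → F.Pl → F.alg2)
    (hu : ∀ z, F.val2 z ∘ u = evF A h.hqM F.m₀ (upF M q (jM M) ^ F.n))
    (hD2li : LinearIndependent (LaurentSeries (Res A)) (rowsAt (F.res2 hstab) D2))
    (hD2 : ∀ z, F.d ≤ finrank (GField A) (colonSp (spanAt (F.val2 z) C) (F.val2 z ∘ u)) →
      spanAt (F.val2 z) D2 = colonSp (spanAt (F.val2 z) C) (F.val2 z ∘ u))
    (z : G × G) : normC F.rt (rowsAt (F.val2 z) D2) = F.delta (z.1 + z.2) := by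
  obtain ⟨T, hT, hmem⟩ := F.exists_point_pair z.1 z.2
  let E := F.D z.1 + F.D z.2
  have hcls : Pic0.mk E = ((z.1 + z.2 : G) : JZero (q * M)) :=
    (Pic0.mk_add _ _).trans (congrArg₂ (· + ·) (F.cls z.1) (F.cls z.2))
  have hX2dim : finrank (GField A) (EvD (A := A) h.hqM F.m₀
      (E : Divisor QBar (FB (q * M))) (F.n + F.n)) ≤
        finrank (Res A) (Bn A M q h.hqM (F.n + F.n)) := by
    rewrite [(finrank_Bn M q h.hqM h.hA (F.n + F.n)).2,
      ← F.dimHD _ (degree_coe E) _ (Nat.le_add_right _ _)]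
    exact finrank_EvD_le h.hqM F.m₀
  have hmul : ∀ e ∈ EvD (A := A) h.hqM F.m₀ (E : Divisor QBar (FB (q * M))) F.n,
      F.val2 z ∘ u * e ∈ EvD h.hqM F.m₀ (E : Divisor QBar (FB (q * M))) (F.n + F.n) := by
    intro e he
    rewrite [hu]
    have := mul_mem_EvD h.hqM F.m₀
      (mem_evSpan (evF A h.hqM F.m₀) (upF_jM_pow_mem_HD F.n)) he
    rewrite [zero_add] at this
    exact this
  have hrows : ∀ i, rowsAt (F.val2 z) C i ∈ (EvD h.hqM F.m₀
      (E : Divisor QBar (FB (q * M))) (F.n + F.n)).map (LinearMap.mulLeft (GField A) T) := by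
    intro i
    obtain ⟨a, b, hab⟩ := hCz i
    rewrite [show rowsAt (F.val2 z) C i = F.delta z.1 a * F.delta z.2 b from
      funext fun k => hab z k]
    exact hmem a b
  have hspan := spanAt_colon_eq (F.isUnit_of_res2 hstab) hC hD2li (F.val2 z) u T hT
    (evSpan_mono _ (HD_mono _ (Nat.le_add_right _ _))) hrows hX2dim hmul
    (F.finrank_EvD_class _ E hcls) (hD2 z)
  obtain ⟨t, ht, etr⟩ := F.exists_translate (z.1 + z.2) E hcls F.n
  have hli := linearIndependent_rowsAt (F.isUnit_of_res2 hstab) hD2li (F.val2 z)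
  refine (F.delta_unique (z.1 + z.2) hli (t := T * t) (fun k => mul_ne_zero (hT k) (ht k)) ?_).2
  rewrite [LinearMap.mulLeft_mul, Submodule.map_comp, ← etr]
  exact hspan

/-- **Translation of a coordinate is in the algebra of the square.** -/
theorem exists_comul_gen (ik : Fin F.d × F.Pl) :
    ∃ f ∈ F.alg2, ∀ z : G × G, f z = F.gen ik (z.1 + z.2) := by
  obtain ⟨C, hC, hCspan, hCz⟩ := F.exists_prodRows hstab
  obtain ⟨u, D2, hu, hD2li, hgood, hD2⟩ := F.exists_colonRows hstab C hC hCspan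
  refine ⟨(normC F.rt D2 ik.1 ik.2 : F.alg2).1, SetLike.coe_mem _, fun z => ?_⟩
  have h1 := F.delta_add_eq hstab C hC hCz u D2 hu hD2li hD2 z
  rw [show rowsAt (F.val2 z) D2 = fun i k => F.val2 z (D2 i k) from rfl,
    map_normC (F.val2 z) F.rt hgood] at h1
  exact congrFun₂ h1 ik.1 ik.2

end Frame

end Fermat.Agent.OrdinaryAtP.Coord

end
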