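import Fermat.Agent.OrdinaryAtP.Coord.Comul
import Fermat.Agent.OrdinaryAtP.Collapse

/-!
# The congruent algebra of a finite group of moved classes

The coordinates separate the classes, so they generate an algebra with the properties needed for
the collapse.
-/

set_option autoImplicit false
set_option synthInstance.maxHeartbeats 400000
set_option maxHeartbeats 1000000
set_option linter.unusedSectionVars false

noncomputable section

namespace Fermat.Agent.OrdinaryAtP.Coord

open ModularCurve AlgebraicCurve Module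
open Fermat.Agent.Semistable Fermat.Agent.RT.Mazur
open Arith (QBar GQ)
open scoped Pointwise

/-- A function with bounded poles whose product with `J ^ n` has the same bound is in `L(D)`. -/
theorem mem_L_of_mul_mem {q M : ℕ} [NeZero M] [Fact q.Prime] {n : ℕ}
    {D : Divisor QBar (FB (q * M))} {f : FB (q * M)} (hf : f ∈ HD M q D n)
    (hJ : upF M q (jM M) ^ n * f ∈ HD M q D n) : f ∈ riemannRochSpace D := by
  rcases eq_or_ne f 0 with rfl | hf0
  · exact zero_mem _
  refine FF.mem_riemannRochSpace'.mpr fun v => ?_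
  have hJ0 : upF M q (jM M) ≠ 0 := fun h => transcendental_upF_jM M q (h ▸ isAlgebraic_zero)
  have h1 := FF.le_ord_of_mem_ordGe v hf0 ((mem_HD M q).mp hf v)
  refine FF.mem_ordGe_of_le v ?_
  by_cases hv : v.ord (upF M q (jM M)) < 0
  · have h2 := FF.le_ord_of_mem_ordGe v (mul_ne_zero (pow_ne_zero _ hJ0) hf0) ((mem_HD M q).mp hJ v)
    rw [v.ord_mul (pow_ne_zero _ hJ0) hf0, FF.ord_pow, FF.poles_apply,
      max_eq_right (by omega)] at h2
    linarith
  · rw [FF.poles_apply, max_eq_left (by omega), mul_zero, zero_add] at h1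
    exact h1

variable {A : ValuationSubring QBar} {q : ℕ} [hq : Fact q.Prime] [CharP (Res A) q]
  {M : ℕ} [NeZero M] [FF.IsFunctionField (Res A) (KM A M)] {h : Setup A M q}
  {G : AddSubgroup (JZero (q * M))} [Finite G]

/-- Functions of two variables which are sums of products. -/
def sumProd {G X : Type*} [Field X] {W : Subring X} (H : Subalgebra W (G → X)) :
    Subalgebra W (G × G → X) where
  carrier := {f | ∃ (κ : Type) (_ : Fintype κ) (a b : κ → G → X), (∀ k, a k ∈ H) ∧ (∀ k, b k ∈ H) ∧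
    ∀ z, f z = ∑ k, a k z.1 * b k z.2}
  mul_mem' := by
    rintro f g ⟨κ, _, a, b, ha, hb, hf⟩ ⟨κ', _, a', b', ha', hb', hg⟩
    refine ⟨κ × κ', inferInstance, fun k => a k.1 * a' k.2, fun k => b k.1 * b' k.2,
      fun k => mul_mem (ha _) (ha' _), fun k => mul_mem (hb _) (hb' _), fun z => ?_⟩
    rw [Pi.mul_apply, hf, hg, Finset.sum_mul_sum, Fintype.sum_prod_type]
    exact Finset.sum_congr rfl fun i _ => Finset.sum_congr rfl fun j _ => by
      simp only [Pi.mul_apply]; ring
  add_mem' := by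
    rintro f g ⟨κ, _, a, b, ha, hb, hf⟩ ⟨κ', _, a', b', ha', hb', hg⟩
    refine ⟨κ ⊕ κ', inferInstance, Sum.elim a a', Sum.elim b b',
      fun k => k.casesOn ha ha', fun k => k.casesOn hb hb', fun z => ?_⟩
    rw [Pi.add_apply, hf, hg, Fintype.sum_sum_type]
    rfl
  algebraMap_mem' w := ⟨Unit, inferInstance, fun _ => algebraMap W (G → X) w, fun _ => 1,
    fun _ => H.algebraMap_mem w, fun _ => one_mem H, fun z => by simp⟩

/-- Precomposition with addition. -/
def precompAdd {G X : Type*} [AddCommGroup G] [Field X] {W : Subring X} :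
    (G → X) →ₐ[W] (G × G → X) where
  toFun f z := f (z.1 + z.2)
  map_one' := rfl
  map_mul' _ _ := rfl
  map_zero' := rfl
  map_add' _ _ := rfl
  commutes' _ := rfl

namespace Frame

variable (F : Frame h G) (hstab : ∀ τ ∈ A.inertiaSubgroupIn ℚ, ∀ y ∈ G, τ • y ∈ G)

include hstab in
theorem comul_mem {f : G → GField A} (hf : f ∈ F.alg) :
    precompAdd (W := gaussW A) f ∈ sumProd F.alg := by
  have h2 : F.alg2 ≤ sumProd F.alg := Algebra.adjoin_le (by
    rintro _ ⟨x, rfl⟩
    rcases x with ik | ik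
    · exact ⟨Unit, inferInstance, fun _ => F.gen ik, fun _ => 1,
        fun _ => Algebra.subset_adjoin ⟨_, rfl⟩, fun _ => one_mem _, fun z => by simp [gen2]⟩
    · exact ⟨Unit, inferInstance, fun _ => 1, fun _ => F.gen ik,
        fun _ => one_mem _, fun _ => Algebra.subset_adjoin ⟨_, rfl⟩, fun z => by simp [gen2]⟩)
  refine h2 ((?_ : F.alg ≤ F.alg2.comap (precompAdd (W := gaussW A))) hf)
  refine Algebra.adjoin_le ?_
  rintro _ ⟨ik, rfl⟩
  obtain ⟨g, hg, hgz⟩ := F.exists_comul_gen hstab ik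
  show precompAdd (W := gaussW A) (F.gen ik) ∈ F.alg2
  rwa [show precompAdd (W := gaussW A) (F.gen ik) = g from funext fun z => (hgz z).symm]

/-- **The coordinates of the zero class determine it.** -/
theorem eq_zero_of_delta_eq (z : G) (hz : F.delta z = F.delta 0) : z = 0 := by
  classical
  by_contra hne
  obtain ⟨tz, htz, ez⟩ := F.exists_span_delta z
  obtain ⟨t0, ht0, e0⟩ := F.exists_span_delta 0
  rw [hz, e0] at ez
  obtain ⟨f0, hf0, hfD⟩ : Divisor.IsPrincipal ((F.D 0 : Divisor QBar (FB (q * M)))) := by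
    have h1 := (QuotientAddGroup.eq_zero_iff _).mp ((F.cls 0).trans rfl)
    exact AddSubgroup.mem_addSubgroupOf.mp h1
  have hD0 : EvD (A := A) h.hqM F.m₀ (F.D 0 : Divisor QBar (FB (q * M))) F.n =
      (EvD h.hqM F.m₀ 0 F.n).map (LinearMap.mulLeft (GField A) (evF A h.hqM F.m₀ f0⁻¹)) :=
    EvD_translate h.hqM F.m₀ hf0 (fun v => by rw [hfD, Finsupp.zero_apply, zero_add]) F.n
  set u := evF A h.hqM F.m₀ (upF M q (jM M) ^ F.n) with hu
  have key : ∀ a ∈ EvD (A := A) h.hqM F.m₀ 0 F.n, ∃ b ∈ EvD h.hqM F.m₀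
      (F.D z : Divisor QBar (FB (q * M))) F.n, tz * b = t0 * (evF A h.hqM F.m₀ f0⁻¹ * a) := by
    intro a ha
    have : t0 * (evF A h.hqM F.m₀ f0⁻¹ * a) ∈
        (EvD h.hqM F.m₀ (F.D 0 : Divisor QBar (FB (q * M))) F.n).map
          (LinearMap.mulLeft (GField A) t0) :=
      ⟨_, hD0 ▸ ⟨a, ha, rfl⟩, rfl⟩
    rwa [ez] at this
  obtain ⟨e, he, hee⟩ := key 1 (by
    rw [← evF_one h.hqM F.m₀]
    exact mem_evSpan _ (by rw [HD_zero]; exact one_mem_polesSpace _ _))
  obtain ⟨e', he', hee'⟩ := key u (mem_evSpan _ (upF_jM_pow_mem_HD F.n))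
  have hue : e' = u * e := funext fun k => mul_left_cancel₀ (htz k) (by
    have h1 := congrFun hee k
    have h2 := congrFun hee' k
    simp only [Pi.mul_apply, mul_one] at h1 h2 ⊢
    rw [h2, mul_left_comm (tz k), h1]
    ring)
  obtain ⟨hinj, -⟩ := F.lifts z (m := F.n + F.n) (Nat.le_add_right _ _) (Nat.le_add_right _ _)
  have hcolon := colon_evSpan_le hinj (LinearMap.mulLeft QBar (upF M q (jM M) ^ F.n)) u
    (evF_ne_zero h.hqM F.m₀ (pow_ne_zero _ fun h0 =>
      transcendental_upF_jM M q (h0 ▸ isAlgebraic_zero)))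
    (fun x => evF_mul h.hqM F.m₀ _ x)
    (HD_mono _ (Nat.le_add_right F.n F.n))
    (by
      rintro _ ⟨x, hx, rfl⟩
      have := mul_mem_HD (upF_jM_pow_mem_HD (M := M) (q := q) F.n) hx
      rwa [zero_add] at this)
    (Z := ⊥) (fun f hf hJf => by
      by_contra hf0
      refine hne (Subtype.ext ?_)
      rw [← F.cls z, ZeroMemClass.coe_zero]
      refine (QuotientAddGroup.eq_zero_iff _).mpr (AddSubgroup.mem_addSubgroupOf.mpr ?_)
      exact ⟨f⁻¹, inv_ne_zero hf0, fun v =>
        (exists_principal_of_section (degree_coe (F.D z)) (mem_L_of_mul_mem hf hJf) hf0 v).symm⟩)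
  have h0 : e = 0 := by
    have := hcolon ⟨he, show u * e ∈ EvD h.hqM F.m₀ _ F.n by rw [← hue]; exact he'⟩
    rw [evSpan, Submodule.bot_coe, Set.image_singleton, map_zero,
      Submodule.span_zero_singleton, Submodule.mem_bot] at this
    exact this
  have h1 := congrFun hee F.root
  simp only [h0, mul_zero, Pi.zero_apply, mul_one, Pi.mul_apply] at h1
  exact mul_ne_zero (ht0 _) (evF_ne_zero h.hqM F.m₀ (inv_ne_zero hf0) _) h1.symm

/-- **The congruent algebra.** -/
def congruentAlgebra : CongruentAlgebra (gaussW A) (sigmaG A) (act hstab) q where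
  H := F.alg
  fin := finite_adjoin_of_goodFun h.hA _ (F.gen_mem_good hstab)
  frac _ hx := exists_mul_mem_gaussW h.hA hx
  fixed w τ := w.2.2 τ
  equivariant f hf τ m :=
    equivariant_of_goodFun (adjoin_le_goodFun _ (F.gen_mem_good hstab) hf) τ m
  separates m m' hm := by
    have h0 : F.delta (m - m') = F.delta 0 := funext fun i => funext fun k => by
      obtain ⟨κ, _, a, b, ha, hb, hab⟩ :=
        F.comul_mem hstab (f := F.gen (i, k)) (Algebra.subset_adjoin ⟨_, rfl⟩)
      have e1 : F.gen (i, k) (m + -m') = ∑ j, a j m * b j (-m') := hab (m, -m')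
      have e2 : F.gen (i, k) (m' + -m') = ∑ j, a j m' * b j (-m') := hab (m', -m')
      rw [add_neg_cancel] at e2
      rw [← sub_eq_add_neg] at e1
      show F.gen (i, k) (m - m') = F.gen (i, k) 0
      rw [e1, e2]
      exact Finset.sum_congr rfl fun j _ => by rw [hm _ (ha j)]
    exact sub_eq_zero.mp (F.eq_zero_of_delta_eq _ h0)
  integral f hf m hm := ⟨mem_locG_of_goodFun (adjoin_le_goodFun _ (F.gen_mem_good hstab) hf) m, hm⟩
  congr f hf m a b ha hb := by
    have hg := adjoin_le_goodFun _ (F.gen_mem_good hstab) hf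
    refine natCast_dvd_of_resGW_eq_zero h.hA ?_
    rw [map_sub, sub_eq_zero]
    have e : ∀ (x : G) (w : gaussW A), f x = w →
        resGW A w = resG A ⟨f x, mem_locG_of_goodFun hg x⟩ := fun x w hw =>
      congrArg (resG A) (Subtype.ext hw.symm)
    rw [e m a ha, e 0 b hb]
    exact resG_eq_of_goodFun hg m 0
  comul f hf := by
    obtain ⟨κ, i, a, b, ha, hb, hab⟩ := F.comul_mem hstab hf
    exact ⟨κ, i, a, b, ha, hb, fun x y => hab (x, y)⟩

end Frame

end Fermat.Agent.OrdinaryAtP.Coord

end
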