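import Fermat.Agent.OrdinaryAtP.Coord.SpanOver

/-!
# Families of subspaces over a ring with units detected by a residue map

Rows over such a ring with independent residues stay independent at every point, and the space
`{c ∈ X | u c ∈ X}` of a family `X` has a basis over the ring when its dimension is constant.
-/

set_option autoImplicit false

noncomputable section

namespace Fermat.Agent.OrdinaryAtP.Coord

open Module Matrix

variable {R : Type*} {K : Type} [CommRing R] [Field K] (ρ : R →+* K) {κ : Type*}

/-- Images of rows. -/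
abbrev rowsAt {F : Type*} [Field F] (φ : R →+* F) {m : Type*} (P : m → κ → R) : m → κ → F :=
  fun i k => φ (P i k)

/-- The span of the images of rows. -/
abbrev spanAt {F : Type*} [Field F] (φ : R →+* F) {m : Type*} (P : m → κ → R) :
    Submodule F (κ → F) :=
  Submodule.span F (Set.range (rowsAt φ P))

/-- The subspace `{c ∈ X | u c ∈ X}`. -/
def colonSp {F : Type*} [Field F] (X : Submodule F (κ → F)) (u : κ → F) : Submodule F (κ → F) :=
  X ⊓ X.comap (LinearMap.mulLeft F u)

theorem mem_colonSp {F : Type*} [Field F] {X : Submodule F (κ → F)} {u c : κ → F} :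
    c ∈ colonSp X u ↔ c ∈ X ∧ u * c ∈ X := Iff.rfl

variable {ρ} (hρ : ∀ r, ρ r ≠ 0 → IsUnit r)

include hρ

theorem isUnit_det {n : Type*} [Fintype n] [DecidableEq n] (N : Matrix n n R)
    (h : IsUnit (N.map ρ)) : IsUnit N.det := by
  refine hρ _ ?_
  rw [RingHom.map_det]
  exact ((Matrix.isUnit_iff_isUnit_det _).mp h).ne_zero

/-- Independent residues give independence at every point. -/
theorem linearIndependent_rowsAt {m : ℕ} {P : Fin m → κ → R}
    (hP : LinearIndependent K (rowsAt ρ P)) {F : Type*} [Field F] (φ : R →+* F) :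
    LinearIndependent F (rowsAt φ P) := by
  obtain ⟨I, hI⟩ := exists_minor hP
  set N : Matrix (Fin m) (Fin m) R := Matrix.of fun i j => P i (I j) with hN
  have hu : IsUnit (N.map φ) := by
    rw [Matrix.isUnit_iff_isUnit_det, ← RingHom.mapMatrix_apply, ← RingHom.map_det]
    exact (isUnit_det hρ N hI).map φ
  have h1 := Matrix.linearIndependent_rows_iff_isUnit.mpr hu
  exact LinearIndependent.of_comp (LinearMap.funLeft F F I) h1

theorem finrank_spanAt {m : ℕ} {P : Fin m → κ → R} (hP : LinearIndependent K (rowsAt ρ P))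
    {F : Type*} [Field F] (φ : R →+* F) : finrank F (spanAt φ P) = m := by
  rw [finrank_span_eq_card (linearIndependent_rowsAt hρ hP φ), Fintype.card_fin]

/-- Rows with independent residues fill a space of at most their number. -/
theorem spanAt_eq {m : ℕ} {P : Fin m → κ → R} (hP : LinearIndependent K (rowsAt ρ P))
    {F : Type*} [Field F] (φ : R →+* F) {X : Submodule F (κ → F)} [FiniteDimensional F X]
    (hX : ∀ i, rowsAt φ P i ∈ X) (hdim : finrank F X ≤ m) : spanAt φ P = X :=
  Submodule.eq_of_le_of_finrank_le (Submodule.span_le.mpr (Set.range_subset_iff.mpr hX))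
    (by rw [finrank_spanAt hρ hP]; exact hdim)

/-- **The colon space of a family.** -/
theorem exists_colon [Fintype κ] {e d : ℕ} {C : Fin e → κ → R}
    (hC : LinearIndependent K (rowsAt ρ C)) (u : κ → R)
    (hd : finrank K (colonSp (spanAt ρ C) (ρ ∘ u)) = d) :
    ∃ D : Fin d → κ → R, LinearIndependent K (rowsAt ρ D) ∧
      spanAt ρ D = colonSp (spanAt ρ C) (ρ ∘ u) ∧
      ∀ {F : Type} [Field F] (φ : R →+* F), d ≤ finrank F (colonSp (spanAt φ C) (φ ∘ u)) →
        spanAt φ D = colonSp (spanAt φ C) (φ ∘ u) := by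
  classical
  obtain ⟨I, hI⟩ := exists_minor hC
  set N : Matrix (Fin e) (Fin e) R := Matrix.of fun i j => C i (I j) with hN
  have hNu : IsUnit N.det := isUnit_det hρ N hI
  set C' : Matrix (Fin e) κ R := N⁻¹ * Matrix.of C with hC'
  have hC'I : ∀ i j, C' i (I j) = if i = j then 1 else 0 := fun i j => by
    rw [hC', Matrix.mul_apply]
    have := congrFun₂ (Matrix.nonsing_inv_mul N hNu) i j
    rw [Matrix.mul_apply, Matrix.one_apply] at this
    exact this
  set M : Matrix (Fin e) κ R :=
    Matrix.of fun i k => C' i k * u k - ∑ j, C' i (I j) * u (I j) * C' j k with hM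
  -- the statements at a point
  have key : ∀ {F : Type} [Field F] (φ : R →+* F),
      Function.Injective (Matrix.vecMulLinear (C'.map φ)) ∧
      (∀ l : Fin e → F, Matrix.vecMul l (C'.map φ) ∈ spanAt φ C) ∧
      (∀ l : Fin e → F, φ ∘ u * Matrix.vecMul l (C'.map φ) ∈ spanAt φ C ↔
        Matrix.vecMul l (M.map φ) = 0) ∧
      (∀ c ∈ spanAt φ C, ∃ l : Fin e → F, Matrix.vecMul l (C'.map φ) = c) := by
    intro F _ φ
    have hid : ∀ (l : Fin e → F) (j : Fin e), Matrix.vecMul l (C'.map φ) (I j) = l j := fun l j => by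
      simp [Matrix.vecMul, dotProduct, Matrix.map_apply, hC'I]
    have hCC : (Matrix.of C : Matrix (Fin e) κ R).map φ = N.map φ * C'.map φ := by
      rw [← Matrix.map_mul, hC', ← Matrix.mul_assoc, Matrix.mul_nonsing_inv N hNu, Matrix.one_mul]
    have hmem : ∀ l : Fin e → F, Matrix.vecMul l (C'.map φ) ∈ spanAt φ C := fun l => by
      rw [hC', Matrix.map_mul, ← Matrix.vecMul_vecMul, Matrix.vecMul_eq_sum]
      exact sum_mem fun i _ => Submodule.smul_mem _ _ (Submodule.subset_span ⟨i, rfl⟩)
    have hsurj : ∀ c ∈ spanAt φ C, ∃ l : Fin e → F, Matrix.vecMul l (C'.map φ) = c := by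
      intro c hc
      obtain ⟨w, hw⟩ := (Submodule.mem_span_range_iff_exists_fun F).mp hc
      refine ⟨Matrix.vecMul w (N.map φ), ?_⟩
      rw [Matrix.vecMul_vecMul, ← hCC, Matrix.vecMul_eq_sum, ← hw]
      rfl
    refine ⟨fun l l' h => funext fun j => ?_, hmem, fun l => ?_, hsurj⟩
    · rw [← hid l j, ← hid l' j]
      exact congrFun h (I j)
    · set c := φ ∘ u * Matrix.vecMul l (C'.map φ) with hc
      have hMl : Matrix.vecMul l (M.map φ) = c - Matrix.vecMul (fun j => c (I j)) (C'.map φ) := by
        funext k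
        simp only [hc, Pi.mul_apply, Pi.sub_apply, Function.comp_apply, Matrix.vecMul, dotProduct,
          Matrix.map_apply, hM, Matrix.of_apply, map_sub, map_sum, map_mul, mul_sub,
          Finset.sum_sub_distrib, Finset.mul_sum, Finset.sum_mul]
        congr 1
        · exact Finset.sum_congr rfl fun i _ => by ring
        · rw [Finset.sum_comm]
          exact Finset.sum_congr rfl fun j _ => Finset.sum_congr rfl fun i _ => by ring
      rw [hMl, sub_eq_zero]
      constructor
      · intro h
        obtain ⟨w, hw⟩ := hsurj c h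
        rw [show (fun j => c (I j)) = w from funext fun j => by rw [← hw]; exact hid w j, hw]
      · intro h
        rw [h]
        exact hmem _
  have hker : ∀ {F : Type} [Field F] (φ : R →+* F),
      (LinearMap.ker (Matrix.vecMulLinear (M.map φ))).map (Matrix.vecMulLinear (C'.map φ)) =
        colonSp (spanAt φ C) (φ ∘ u) := by
    intro F _ φ
    obtain ⟨-, h1, h2, h3⟩ := key φ
    ext c
    constructor
    · rintro ⟨l, hl, rfl⟩
      exact ⟨h1 l, (h2 l).mpr hl⟩
    · rintro ⟨hc, hc'⟩
      obtain ⟨l, rfl⟩ := h3 c hc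
      exact ⟨l, (h2 l).mp hc', rfl⟩
  -- the columns
  set f0 := Matrix.vecMulLinear (M.map ρ) with hf0
  obtain ⟨hinj0, -, -, -⟩ := key ρ
  have hk0 : finrank K (LinearMap.ker f0) = d := by
    rw [← hd, ← hker ρ]
    exact (Submodule.equivMapOfInjective _ hinj0 _).finrank_eq
  set r := finrank K (LinearMap.range f0) with hr
  have hrd : r + d = e := by
    have := f0.finrank_range_add_finrank_ker
    rw [hk0, Module.finrank_fintype_fun_eq_card, Fintype.card_fin] at this
    exact this
  set bR := Module.finBasis K (LinearMap.range f0)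
  obtain ⟨T, hT⟩ := exists_minor (bR.linearIndependent.map' (LinearMap.range f0).subtype
    (Submodule.ker_subtype _))
  have hTspan : Submodule.span K (Set.range fun i : Fin e => fun b => ρ (M i (T b))) = ⊤ := by
    refine eq_top_iff.mpr ?_
    rw [← (Matrix.linearIndependent_rows_iff_isUnit.mpr hT).span_eq_top_of_card_eq_finrank' (by
      rw [Fintype.card_fin, Module.finrank_fintype_fun_eq_card, Fintype.card_fin])]
    refine Submodule.span_le.mpr ?_
    rintro _ ⟨j, rfl⟩
    obtain ⟨l, hl⟩ := (bR j).2
    have hl' : (fun b => (bR j : κ → K) (T b)) = ∑ i, l i • fun b => ρ (M i (T b)) := by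
      funext b
      rw [← hl, Finset.sum_apply]
      simp [hf0, Matrix.vecMul, dotProduct]
    show (fun b => (bR j : κ → K) (T b)) ∈ _
    rw [hl']
    exact sum_mem fun i _ => Submodule.smul_mem _ _ (Submodule.subset_span ⟨i, rfl⟩)
  obtain ⟨S, hSli, -⟩ := exists_subfamily (fun i : Fin e => fun b => ρ (M i (T b))) (d := r) (by
    rw [hTspan, finrank_top, Module.finrank_fintype_fun_eq_card, Fintype.card_fin])
  have hSinj : Function.Injective S := fun a b h => by
    by_contra hne
    exact hne (hSli.injective (by simp [h]))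
  set Nr : Matrix (Fin r) (Fin r) R := Matrix.of fun a b => M (S a) (T b) with hNr
  have hNru : IsUnit Nr.det :=
    isUnit_det hρ Nr (Matrix.linearIndependent_rows_iff_isUnit.mp hSli)
  have hcard : Fintype.card {i : Fin e // i ∉ Set.range S} = d := by
    rw [Fintype.card_subtype_compl,
      Set.card_range_of_injective hSinj, Fintype.card_fin, Fintype.card_fin]
    omega
  let J : Fin d ≃ {i : Fin e // i ∉ Set.range S} := (Fintype.equivFinOfCardEq hcard).symm
  set L : Matrix (Fin d) (Fin e) R := Matrix.of fun a j =>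
    (if ((J a : {i : Fin e // i ∉ Set.range S}) : Fin e) = j then 1 else 0) -
      ∑ b, ((Matrix.of fun a b => M (J a) (T b)) * Nr⁻¹ : Matrix (Fin d) (Fin r) R) a b *
        (if S b = j then 1 else 0) with hL
  have hLM : ∀ a c, (L * M) a (T c) = 0 := fun a c => by
    have h1 : ((Matrix.of fun a b => M (J a) (T b)) * Nr⁻¹ * Nr : Matrix (Fin d) (Fin r) R) a c =
        M (J a) (T c) := by
      rw [Matrix.mul_assoc, Matrix.nonsing_inv_mul Nr hNru, Matrix.mul_one]
      rfl
    rw [Matrix.mul_apply] at h1
    rw [Matrix.mul_apply]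
    simp only [hL, Matrix.of_apply, sub_mul, Finset.sum_sub_distrib, Finset.sum_mul, mul_assoc,
      ite_mul, one_mul, zero_mul, Finset.sum_ite_eq, Finset.mem_univ, if_true]
    rw [Finset.sum_comm]
    simp only [← Finset.mul_sum, Finset.sum_ite_eq, Finset.mem_univ, if_true]
    rw [sub_eq_zero]
    exact h1.symm
  have hLid : ∀ a a', L a (J a' : Fin e) = if a = a' then 1 else 0 := fun a a' => by
    have h0 : ∀ b, S b ≠ (J a' : Fin e) := fun b h => (J a').2 ⟨b, h⟩
    simp [hL, h0, Subtype.coe_injective.eq_iff]
  -- at a point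
  have main : ∀ {F : Type} [Field F] (φ : R →+* F),
      LinearIndependent F (rowsAt φ (fun a => (L * C' : Matrix (Fin d) κ R) a)) ∧
      (d ≤ finrank F (colonSp (spanAt φ C) (φ ∘ u)) →
        spanAt φ (fun a => (L * C' : Matrix (Fin d) κ R) a) = colonSp (spanAt φ C) (φ ∘ u)) := by
    intro F _ φ
    obtain ⟨hinj, -, -, -⟩ := key φ
    set w : Fin d → Fin e → F := rowsAt φ L
    have hw : LinearIndependent F w := by
      rw [Fintype.linearIndependent_iff]
      intro g hg a
      have : ∑ i, g i * φ (L i (J a : Fin e)) = 0 := by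
        simpa [w, rowsAt, Finset.sum_apply] using congrFun hg (J a : Fin e)
      simpa [hLid, apply_ite φ] using this
    have hrows : rowsAt φ (fun a => (L * C' : Matrix (Fin d) κ R) a) =
        Matrix.vecMulLinear (C'.map φ) ∘ w := funext fun a => funext fun k => by
      simp [rowsAt, w, Matrix.mul_apply, Matrix.vecMul, dotProduct]
    have hli := hw.map' _ (LinearMap.ker_eq_bot.mpr hinj)
    refine ⟨hrows ▸ hli, fun hge => ?_⟩
    set f := Matrix.vecMulLinear (M.map φ)
    set π := (LinearMap.funLeft F F T).comp f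
    have hπ : LinearMap.range π = ⊤ := LinearMap.range_eq_top.mpr fun y => by
      refine ⟨∑ b, (Matrix.vecMul y (Nr⁻¹.map φ)) b • Pi.single (S b) 1, funext fun c => ?_⟩
      have h1 : Matrix.vecMul (Matrix.vecMul y (Nr⁻¹.map φ)) (Nr.map φ) = y := by
        rw [Matrix.vecMul_vecMul, ← Matrix.map_mul, Matrix.nonsing_inv_mul Nr hNru,
          Matrix.map_one _ (map_zero φ) (map_one φ), Matrix.vecMul_one]
      conv_rhs => rw [← h1]
      simp [π, f, LinearMap.funLeft_apply, Matrix.vecMul, dotProduct, Finset.sum_mul, hNr]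
    have hdim : finrank F (LinearMap.ker π) = d := by
      have := π.finrank_range_add_finrank_ker
      rw [hπ, finrank_top, Module.finrank_fintype_fun_eq_card,
        Module.finrank_fintype_fun_eq_card, Fintype.card_fin, Fintype.card_fin] at this
      omega
    have hle : LinearMap.ker f ≤ LinearMap.ker π := fun x hx => by
      rw [LinearMap.mem_ker] at hx ⊢
      simp [π, hx]
    have heq : LinearMap.ker f = LinearMap.ker π := Submodule.eq_of_le_of_finrank_le hle (by
      rw [hdim, (Submodule.equivMapOfInjective _ hinj _).finrank_eq, hker φ]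
      exact hge)
    have hwspan : Submodule.span F (Set.range w) = LinearMap.ker f := by
      rw [heq]
      refine Submodule.eq_of_le_of_finrank_le (Submodule.span_le.mpr ?_) (by
        rw [finrank_span_eq_card hw, hdim, Fintype.card_fin])
      rintro _ ⟨a, rfl⟩
      refine funext fun c => ?_
      simp only [π, f, LinearMap.comp_apply, LinearMap.funLeft_apply, Pi.zero_apply]
      show Matrix.vecMul (w a) (M.map φ) (T c) = 0
      rw [← map_zero φ, ← hLM a c, Matrix.mul_apply, map_sum]
      simp [Matrix.vecMul, dotProduct, w]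
    rw [show spanAt φ (fun a => (L * C' : Matrix (Fin d) κ R) a) =
      Submodule.span F (Set.range (Matrix.vecMulLinear (C'.map φ) ∘ w)) by rw [← hrows],
      Set.range_comp, ← Submodule.map_span, hwspan, hker φ]
  exact ⟨fun a => (L * C' : Matrix (Fin d) κ R) a, (main ρ).1, (main ρ).2 hd.ge,
    fun φ hge => (main φ).2 hge⟩

end Fermat.Agent.OrdinaryAtP.Coord

end
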