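import Fermat.Agent.OrdinaryAtP.Coord.SpanOver
import Fermat.Agent.Igusa.LaurentExt
import Mathlib.FieldTheory.Finite.Basic
import Fermat.Agent.Semistable.SeriesLemmas

/-!
# Rational series and a Moore determinant

Series `r` with `r ^ p = r (q ^ p)` are rational. An independent family of tuples of rational series
stays independent when each tuple is evaluated at `q ^ (p ^ l)` for enough `l`. A space of tuples
stable under Frobenius on coefficients is spanned by rational ones.
-/

set_option autoImplicit false
set_option synthInstance.maxHeartbeats 400000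

noncomputable section

namespace Fermat.Agent.OrdinaryAtP.Coord

open ModularCurve
open Fermat.Agent.Semistable (pow_char_eq_qExpand_of_fixed)

/-- Substitution of `q ^ (p ^ l)` for `q`. -/
def qPow (R : Type*) [CommRing R] (p : ℕ) [NeZero p] (l : ℕ) :
    LaurentSeries R →+* LaurentSeries R :=
  qExpand R (p ^ l)

section

variable {k : Type*} [Field k] (p : ℕ) [hp : Fact p.Prime]

omit hp in
theorem qPow_zero [NeZero p] (x : LaurentSeries k) : qPow k p 0 x = x := by
  rw [qPow, qExpand_congr (pow_zero p), qExpand_one_apply]

omit hp in
theorem qExpand_const' (d : ℕ) [NeZero d] (c : k) :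
    qExpand k d (algebraMap k (LaurentSeries k) c) = algebraMap k _ c := by
  rw [algebraMap_laurentSeries_eq_single, qExpand_single, mul_zero]

theorem qPow_const (l : ℕ) (c : k) :
    qPow k p l (algebraMap k (LaurentSeries k) c) = algebraMap k _ c :=
  qExpand_const' _ c

theorem qPow_succ (l : ℕ) (x : LaurentSeries k) :
    qPow k p (l + 1) x = qPow k p l (qExpand k p x) := by
  rw [qPow, qPow, qExpand_qExpand, qExpand_congr (pow_succ p l)]

/-- Rational tuples. -/
def IsRat {S : Type*} (r : S → LaurentSeries k) : Prop := ∀ s, r s ^ p = qExpand k p (r s)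

theorem IsRat.qPow_eq {S : Type*} {r : S → LaurentSeries k} (hr : IsRat p r) (s : S) :
    ∀ l, qPow k p l (r s) = r s ^ p ^ l
  | 0 => by rw [qPow_zero, pow_zero, pow_one]
  | l + 1 => by
    rw [qPow_succ, ← hr, map_pow, hr.qPow_eq s l, ← pow_mul, ← pow_succ]

/-- The scalar action of the algebra on vectors of series. -/
local instance (priority := high) instModuleTarget {S : Type*} {m₀ : ℕ} :
    Module k (S × Fin m₀ → LaurentSeries k) :=
  @Pi.Function.module (S × Fin m₀) k (LaurentSeries k) _ _ Algebra.toModule

/-- The values at `q ^ (p ^ l)`, `l < m₀`. The target has the scalar action of the algebra. -/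
def evR {S : Type*} (m₀ : ℕ) :
    (S → LaurentSeries k) →ₗ[k] (S × Fin m₀ → LaurentSeries k) where
  toFun x y := qPow k p y.2 (x y.1)
  map_add' x x' := funext fun y => map_add _ _ _
  map_smul' c x := funext fun y => by
    simp only [RingHom.id_apply, Pi.smul_apply]
    rw [Igusa.hsmul_eq, map_mul, qPow_const]
    exact (Algebra.smul_def c _).symm

theorem evR_apply {S : Type*} (m₀ : ℕ) (x : S → LaurentSeries k) (y : S × Fin m₀) :
    evR p m₀ x y = qPow k p y.2 (x y.1) := rfl

variable [CharP k p]

theorem exists_natCast_of_pow_eq {x : LaurentSeries k} (hx : x ^ p = x) :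
    ∃ i : ℕ, x = algebraMap k (LaurentSeries k) i := by
  classical
  have := charP_of_injective_algebraMap (algebraMap k (LaurentSeries k)).injective p
  set T : Finset (LaurentSeries k) := (Finset.range p).image fun i : ℕ => (i : LaurentSeries k)
  set P : Polynomial (LaurentSeries k) := Polynomial.X ^ p - Polynomial.X with hP
  have hcard : T.card = p := by
    rw [Finset.card_image_of_injOn, Finset.card_range]
    intro i hi j hj h
    simp only [Finset.coe_range, Set.mem_Iio] at hi hj
    exact (CharP.natCast_eq_natCast (LaurentSeries k) p).mp h |>.eq_of_lt_of_lt hi hj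
  have hdeg : P.natDegree = p := FiniteField.X_pow_card_sub_X_natDegree_eq _ hp.out.one_lt
  have hP0 : P ≠ 0 := FiniteField.X_pow_card_sub_X_ne_zero _ hp.out.one_lt
  have hsub : insert x T ⊆ P.roots.toFinset := by
    intro y hy
    rw [Multiset.mem_toFinset, Polynomial.mem_roots hP0]
    rcases Finset.mem_insert.mp hy with rfl | hy
    · simp [hP, hx]
    · obtain ⟨i, -, rfl⟩ := Finset.mem_image.mp hy
      have : ((i : LaurentSeries k)) ^ p = i := map_natCast (frobenius (LaurentSeries k) p) i
      simp [hP, this]
  have h1 := (Finset.card_le_card hsub).trans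
    ((Multiset.toFinset_card_le _).trans (Polynomial.card_roots' P))
  by_contra hne
  rw [Finset.card_insert_of_notMem (fun hm => hne (by
    obtain ⟨i, -, rfl⟩ := Finset.mem_image.mp hm
    exact ⟨i, (map_natCast _ i).symm⟩)), hcard, hdeg] at h1
  omega

/-- **Moore**: rational independent tuples stay independent. -/
theorem moore {S : Type*} {m m₀ : ℕ} (r : Fin m → S → LaurentSeries k) (hr : ∀ i, IsRat p (r i))
    (hli : LinearIndependent k r) (hm : m ≤ m₀) :
    LinearIndependent (LaurentSeries k) (evR p m₀ ∘ r) := by
  classical
  suffices key : ∀ (c : ℕ) (r : Fin m → S → LaurentSeries k), (∀ i, IsRat p (r i)) →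
      LinearIndependent k r → ∀ g : Fin m → LaurentSeries k,
      (Finset.univ.filter fun i => g i ≠ 0).card ≤ c →
      (∀ s, ∀ l < c, ∑ i, g i * r i s ^ p ^ l = 0) → g = 0 by
    rw [Fintype.linearIndependent_iff]
    intro g hg i
    refine congrFun (key m r hr hli g ((Finset.card_filter_le _ _).trans (by simp))
      fun s l hl => ?_) i
    have := congrFun hg (s, ⟨l, hl.trans_le hm⟩)
    simpa [Finset.sum_apply, evR_apply, (hr _).qPow_eq] using this
  intro c
  induction c with
  | zero =>
    intro r _ _ g hg _
    funext i
    by_contra hi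
    exact (Finset.card_pos.mpr ⟨i, by simpa using hi⟩).ne' (Nat.le_zero.mp hg)
  | succ c ih =>
    intro r hr hli g hg hrel
    by_contra hne
    obtain ⟨j, hj⟩ := Function.ne_iff.mp hne
    simp only [Pi.zero_apply] at hj
    set l : Fin m → LaurentSeries k := fun i => (g j)⁻¹ * g i with hl
    have hlj : l j = 1 := inv_mul_cancel₀ hj
    have hlrel : ∀ s, ∀ e < c + 1, ∑ i, l i * r i s ^ p ^ e = 0 := fun s e he => by
      simp only [hl, mul_assoc, ← Finset.mul_sum, hrel s e he, mul_zero]
    -- the difference of a relation and the `p`th power of the previous one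
    have hμ : (fun i => l i ^ p - l i) = 0 := by
      refine ih (fun i s => r i s ^ p) (fun i s => by rw [map_pow, ← hr i s]) ?_ _ ?_ ?_
      · rw [show (fun i s => r i s ^ p) = fun i s => qExpand k p (r i s) from
          funext fun i => funext fun s => hr i s]
        let T : (S → LaurentSeries k) →ₗ[k] (S → LaurentSeries k) :=
          { toFun := fun x s => qExpand k p (x s)
            map_add' := fun x y => funext fun s => map_add _ _ _
            map_smul' := fun a x => funext fun s => by
              show qExpand k p ((a • x) s) = a • qExpand k p (x s)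
              rw [Pi.smul_apply, Igusa.hsmul_eq, Igusa.hsmul_eq, map_mul, qExpand_const'] }
        exact hli.map' T (LinearMap.ker_eq_bot.mpr fun x y h =>
          funext fun s => qExpand_injective p (congrFun h s))
      · refine Nat.lt_succ_iff.mp (lt_of_lt_of_le (Finset.card_lt_card ?_) hg)
        rw [Finset.ssubset_iff_of_subset]
        · exact ⟨j, by simp [hj], by simp [hlj]⟩
        · intro i hi
          simp only [Finset.mem_filter, Finset.mem_univ, true_and] at hi ⊢
          intro h0
          exact hi (by simp [hl, h0, hp.out.ne_zero])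
      · intro s e he
        have h1 : (∑ i, l i * r i s ^ p ^ e) ^ p = 0 := by
          rw [hlrel s e (by omega), zero_pow hp.out.ne_zero]
        have := charP_of_injective_algebraMap (algebraMap k (LaurentSeries k)).injective p
        rw [sum_pow_char p] at h1
        have h2 := hlrel s (e + 1) (by omega)
        simp only [mul_pow, ← pow_mul, ← pow_succ] at h1
        rw [pow_succ'] at h2
        simp only [sub_mul, Finset.sum_sub_distrib]
        rw [show (∑ i, l i ^ p * (r i s ^ p) ^ p ^ e) = 0 by
            simpa [← pow_mul, ← pow_succ'] using h1,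
          show (∑ i, l i * (r i s ^ p) ^ p ^ e) = 0 by simpa [← pow_mul] using h2, sub_zero]
    choose a ha using fun i => exists_natCast_of_pow_eq p (x := l i)
      (sub_eq_zero.mp (congrFun hμ i))
    have h0 : ∑ i, ((a i : k)) • r i = 0 := funext fun s => by
      have := hlrel s 0 (by omega)
      simp only [ha, pow_zero, pow_one] at this
      rw [Finset.sum_apply]
      simpa [Igusa.hsmul_eq] using this
    have := Fintype.linearIndependent_iff.mp hli _ h0 j
    rw [ha j, this, map_zero] at hlj
    exact zero_ne_one hlj

/-- A finite-dimensional space of tuples stable under the coefficient Frobenius is spanned by its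
rational elements. -/
theorem le_span_rat {S : Type*} (V : Submodule k (S → LaurentSeries k)) [FiniteDimensional k V]
    (h : ∀ x ∈ V, (fun s => coeffMap (frobenius k p) (x s)) ∈ V) :
    V ≤ Submodule.span k {x | x ∈ V ∧ IsRat p x} := by
  classical
  let f : S × ℤ → Module.Dual k V := fun n =>
    { toFun := fun x => ((x : S → LaurentSeries k) n.1).coeff n.2
      map_add' := fun x y => by simp
      map_smul' := fun c x => by simp }
  have htop : Submodule.span k (Set.range f) = ⊤ := by
    by_contra hne
    obtain ⟨Φ, hΦ, hmap⟩ := Submodule.exists_dual_map_eq_bot_of_lt_top (lt_top_iff_ne_top.mpr hne)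
      inferInstance
    obtain ⟨v, rfl⟩ := (Module.evalEquiv k V).surjective Φ
    refine hΦ ?_
    have hv : v = 0 := by
      refine Subtype.ext (funext fun s => HahnSeries.ext (funext fun n => ?_))
      have : (Module.evalEquiv k V v) (f (s, n)) ∈
          (Submodule.span k (Set.range f)).map (Module.evalEquiv k V v) :=
        ⟨f (s, n), Submodule.subset_span ⟨_, rfl⟩, rfl⟩
      rw [hmap, Submodule.mem_bot, Module.evalEquiv_apply] at this
      simpa [f] using this
    rw [hv, map_zero]
  obtain ⟨b, hb, hspan, hli⟩ := exists_linearIndependent k (Set.range f)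
  rw [htop] at hspan
  have : Finite b := hli.finite
  let _ := Fintype.ofFinite b
  let e : V →ₗ[k] (b → k) := LinearMap.pi fun i => (i : Module.Dual k V)
  have hinj : Function.Injective e := by
    rw [← LinearMap.ker_eq_bot, LinearMap.ker_eq_bot']
    intro x hx
    have hz : ∀ φ ∈ Submodule.span k b, φ x = 0 := fun φ hφ => by
      induction hφ using Submodule.span_induction with
      | mem φ hφ => exact congrFun hx ⟨φ, hφ⟩
      | zero => rfl
      | add _ _ _ _ h1 h2 => simp [h1, h2]
      | smul c _ _ h1 => simp [h1]
    exact (Module.forall_dual_apply_eq_zero_iff k x).mp fun φ => hz φ (hspan ▸ Submodule.mem_top)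
  have hsurj : Function.Surjective e := by
    refine (LinearMap.injective_iff_surjective_of_finrank_eq_finrank ?_).mp hinj
    rw [Module.finrank_fintype_fun_eq_card, ← Subspace.dual_finrank_eq,
      ← finrank_top k (Module.Dual k V), ← hspan,
      finrank_span_set_eq_card (R := k) (s := b) hli, Set.toFinset_card]
  intro x hx
  have key : ∀ i : b, ∃ u : V, e u = Pi.single i 1 ∧ IsRat p (u : S → LaurentSeries k) := by
    intro i
    obtain ⟨u, hu⟩ := hsurj (Pi.single i 1)
    refine ⟨u, hu, fun s => pow_char_eq_qExpand_of_fixed p fun n => ?_⟩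
    have hfix : (⟨_, h u u.2⟩ : V) = u := hinj (by
      funext j
      obtain ⟨⟨s', n'⟩, hn⟩ := hb j.2
      have h1 : ∀ w : V, e w j = ((w : S → LaurentSeries k) s').coeff n' := fun w => by
        show (j : Module.Dual k V) w = _
        rw [← hn]; rfl
      have h2 : ((u : S → LaurentSeries k) s').coeff n' = (Pi.single i 1 : b → k) j := by
        rw [← h1, hu]
      rw [h1, h1, coeffMap_coeff, frobenius_def, h2]
      rcases eq_or_ne j i with rfl | hji
      · simp
      · simp [hji, zero_pow hp.out.ne_zero])
    have := congrArg (fun w : V => ((w : S → LaurentSeries k) s).coeff n) hfix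
    simpa [frobenius_def] using this
  choose u hu hfix using key
  have hxe : (⟨x, hx⟩ : V) = ∑ i, e ⟨x, hx⟩ i • u i := hinj (by
    rw [map_sum]
    simp only [map_smul, hu]
    funext j
    simp [Finset.sum_apply, Pi.single_apply])
  have hx' : x = ((∑ i, e ⟨x, hx⟩ i • u i : V) : S → LaurentSeries k) := congrArg Subtype.val hxe
  rw [hx', Submodule.coe_sum]
  exact Submodule.sum_mem _ fun i _ =>
    Submodule.smul_mem _ _ (Submodule.subset_span ⟨(u i).2, hfix i⟩)

/-- A rational basis of a Frobenius stable space. -/
theorem exists_rat_basis {S : Type*} (V : Submodule k (S → LaurentSeries k))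
    [FiniteDimensional k V] (h : ∀ x ∈ V, (fun s => coeffMap (frobenius k p) (x s)) ∈ V) :
    ∃ r : Fin (Module.finrank k V) → S → LaurentSeries k, (∀ i, r i ∈ V) ∧ (∀ i, IsRat p (r i)) ∧
      LinearIndependent k r ∧ Submodule.span k (Set.range r) = V := by
  classical
  obtain ⟨b, hb, hspan, hli⟩ := exists_linearIndependent k {x | x ∈ V ∧ IsRat p x}
  have hV : Submodule.span k b = V := by
    rw [hspan]
    exact le_antisymm (Submodule.span_le.mpr fun x hx => hx.1) (le_span_rat p V h)
  have : Finite b := by
    have : FiniteDimensional k (Submodule.span k (Set.range ((↑) : b → S → LaurentSeries k))) := by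
      rw [Subtype.range_coe, hV]; infer_instance
    exact (linearIndependent_span (R := k) (v := ((↑) : b → S → LaurentSeries k)) hli).finite
  let _ := Fintype.ofFinite b
  have hcard : Fintype.card b = Module.finrank k V := by
    rw [← hV, finrank_span_set_eq_card (R := k) (s := b) hli, Set.toFinset_card]
  let e := (Fintype.equivFinOfCardEq hcard).symm
  exact ⟨fun i => (e i : S → LaurentSeries k), fun i => (hb (e i).2).1, fun i => (hb (e i).2).2,
    hli.comp e e.injective,
    by rw [show (fun i => (e i : S → LaurentSeries k)) = Subtype.val ∘ e from rfl, Set.range_comp,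
      e.range_eq_univ, Set.image_univ, Subtype.range_coe, hV]⟩

/-- Evaluation keeps independence on a Frobenius stable space. -/
theorem injOver_evR {S : Type*} (V : Submodule k (S → LaurentSeries k))
    [FiniteDimensional k V] (h : ∀ x ∈ V, (fun s => coeffMap (frobenius k p) (x s)) ∈ V)
    {m₀ : ℕ} (hm : Module.finrank k V ≤ m₀) : InjOver (evR p m₀) V := by
  obtain ⟨r, hrV, hrat, hli, hspan⟩ := exists_rat_basis p V h
  exact injOver_of_span r hrV hspan.ge (moore p r hrat hli hm)

end

end Fermat.Agent.OrdinaryAtP.Coord

end
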