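import Fermat.Agent.OrdinaryAtP.Coord.Gauss
import Fermat.Agent.OrdinaryAtP.Coord.Families
import Fermat.Agent.OrdinaryAtP.Coord.Moore
import Fermat.Agent.Semistable.LocalTheory
import Fermat.Agent.RT.Mazur.Injective

/-!
# Evaluation of functions of level `q M` in the Gauss field

A function is sent to its two expansions at `q ^ (q ^ l)`, `l < m₀`. The spaces `L(n ∞ + D)` become
spaces of vectors over the Gauss field, moved by translations and by inertia as the divisors are.
-/

set_option autoImplicit false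
set_option synthInstance.maxHeartbeats 400000
set_option maxHeartbeats 1000000
set_option linter.unusedSectionVars false

noncomputable section

namespace Fermat.Agent.OrdinaryAtP.Coord

open ModularCurve AlgebraicCurve Module
open Fermat.Agent.Semistable
open Arith (QBar GQ)
open scoped Pointwise

variable {A : ValuationSubring QBar} {q : ℕ} [hq : Fact q.Prime] {M : ℕ}

theorem coeffMap_qPow {R S : Type*} [CommRing R] [CommRing S] (f : R →+* S) (p : ℕ) [NeZero p]
    (l : ℕ) (x : LaurentSeries R) : coeffMap f (qPow R p l x) = qPow S p l (coeffMap f x) := by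
  rw [qPow, qPow]
  ext k
  by_cases hk : ((p ^ l : ℕ) : ℤ) ∣ k
  · obtain ⟨m, rfl⟩ := hk
    rw [coeffMap_coeff, qExpand_coeff_mul, qExpand_coeff_mul, coeffMap_coeff]
  · rw [coeffMap_coeff, qExpand_coeff_of_not_dvd _ _ hk, qExpand_coeff_of_not_dvd _ _ hk, map_zero]

theorem qPow_mem_fracS (l : ℕ) {x : LSer} (hx : x ∈ fracS A) : qPow QBar q l x ∈ fracS A := by
  obtain ⟨a, ha, b, hb, hb0, e⟩ := mem_fracS.mp hx
  exact mem_fracS.mpr ⟨_, qExpand_mem_intS (q ^ l) ha, _, qExpand_mem_intS (q ^ l) hb,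
    (_root_.map_ne_zero _).mpr hb0, by rw [qPow, ← map_mul, e]⟩

theorem qPow_mem_locS (l : ℕ) {x : LSer} (hx : x ∈ locS A) :
    ∃ h : qPow QBar q l x ∈ locS A, redL A ⟨_, h⟩ = qPow (Res A) q l (redL A ⟨x, hx⟩) :=
  ⟨qExpand_mem_locS (q ^ l) hx, redL_qExpand (q ^ l) hx⟩

/-- `ev` of a multiple. -/
theorem evSpan_map_mul {k Ω V κ : Type*} [Field k] [Field Ω] [Algebra k Ω] [AddCommGroup V]
    [Module k V] (ev : V →ₗ[k] (κ → Ω)) (μ : V →ₗ[k] V) (e : κ → Ω)
    (hμ : ∀ x, ev (μ x) = e * ev x) (X : Submodule k V) :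
    evSpan ev (X.map μ) = (evSpan ev X).map (LinearMap.mulLeft Ω e) := by
  rw [evSpan, evSpan, Submodule.map_span, Submodule.map_coe, Set.image_image, Set.image_image]
  simp only [hμ, LinearMap.mulLeft_apply]

variable [NeZero M] (hqM : ¬ q ∣ M) (m₀ : ℕ)

variable (A) in
/-- The expansions at `q ^ (q ^ l)`. -/
def evF : FB (q * M) →ₗ[QBar] (Fin 2 × Fin m₀ → GField A) where
  toFun x k := ⟨qPow QBar q k.2 (iota2 M q hqM k.1 x),
    qPow_mem_fracS k.2 (iota2_fracS M q hqM k.1 x)⟩
  map_add' x y := funext fun k => Subtype.ext <| by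
    show qPow QBar q k.2 (iota2 M q hqM k.1 (x + y)) = _
    rw [map_add, map_add]
    rfl
  map_smul' c x := funext fun k => Subtype.ext <| by
    show qPow QBar q k.2 (iota2 M q hqM k.1 (c • x)) = _
    rw [Algebra.smul_def, map_mul, map_mul, AlgHom.commutes, qPow_const]
    simp only [RingHom.id_apply, Pi.smul_apply, Algebra.smul_def]
    rfl

theorem coe_evF (x : FB (q * M)) (k : Fin 2 × Fin m₀) :
    (evF A hqM m₀ x k : LSer) = qPow QBar q k.2 (iota2 M q hqM k.1 x) := rfl

theorem evF_mul (x y : FB (q * M)) : evF A hqM m₀ (x * y) = evF A hqM m₀ x * evF A hqM m₀ y :=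
  funext fun k => Subtype.ext <| by
    show qPow QBar q k.2 (iota2 M q hqM k.1 (x * y)) = _
    rw [map_mul, map_mul]
    rfl

theorem evF_one : evF A hqM m₀ 1 = 1 :=
  funext fun k => Subtype.ext <| by
    show qPow QBar q k.2 (iota2 M q hqM k.1 1) = _
    rw [map_one, map_one]
    rfl

theorem evF_ne_zero {x : FB (q * M)} (hx : x ≠ 0) (k : Fin 2 × Fin m₀) :
    evF A hqM m₀ x k ≠ 0 := fun h0 => by
  have h1 : qPow QBar q k.2 (iota2 M q hqM k.1 x) = 0 := congrArg Subtype.val h0
  rw [map_eq_zero, map_eq_zero] at h1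
  exact hx h1

/-- Integral functions have integral expansions, with the expected residues. -/
theorem resG_evF (x : loc2 A (iota2 M q hqM)) (k : Fin 2 × Fin m₀) :
    ∃ h : evF A hqM m₀ x.1 k ∈ locG A,
      resG A ⟨_, h⟩ = evR q m₀ (red2 A (iota2 M q hqM) x) k := by
  obtain ⟨h, e⟩ := qPow_mem_locS (q := q) k.2 ((mem_loc2 _).mp x.2 k.1)
  exact ⟨h, e⟩

/-- Inertia commutes with the expansions. -/
theorem sigmaG_evF (τ : A.inertiaSubgroupIn ℚ) (x : FB (q * M)) (k : Fin 2 × Fin m₀) :
    sigmaG A τ (evF A hqM m₀ x k) = evF A hqM m₀ (galF (q * M) (τ : GQ) x) k := by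
  refine Subtype.ext ?_
  rw [coe_sigmaG, coe_evF, coe_evF, coeffMap_qPow]
  congr 1
  rcases k with ⟨s, -⟩
  fin_cases s
  · exact (coe_arithmeticRingAut (τ : GQ) x).symm
  · refine Eq.trans ?_ (iota2_one M q hqM _).symm
    rw [wEquiv_galois, coe_arithmeticRingAut]
    exact congrArg _ (iota2_one M q hqM x)

/-- The vectors of `L(n ∞ + D)`. -/
abbrev EvD (D : Divisor QBar (FB (q * M))) (n : ℕ) :
    Submodule (GField A) (Fin 2 × Fin m₀ → GField A) :=
  evSpan (evF A hqM m₀) (HD M q D n)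

theorem mul_mem_EvD {D D' : Divisor QBar (FB (q * M))} {a b : ℕ}
    {x y : Fin 2 × Fin m₀ → GField A} (hx : x ∈ EvD hqM m₀ D a) (hy : y ∈ EvD hqM m₀ D' b) :
    x * y ∈ EvD hqM m₀ (D + D') (a + b) := by
  induction hx using Submodule.span_induction with
  | mem x hx =>
    obtain ⟨x, hx, rfl⟩ := hx
    induction hy using Submodule.span_induction with
    | mem y hy =>
      obtain ⟨y, hy, rfl⟩ := hy
      rw [← evF_mul]
      exact mem_evSpan _ (mul_mem_HD hx hy)
    | zero => rw [mul_zero]; exact zero_mem _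
    | add y y' _ _ h1 h2 => rw [mul_add]; exact add_mem h1 h2
    | smul c y _ h1 => rw [mul_smul_comm]; exact Submodule.smul_mem _ c h1
  | zero => rw [zero_mul]; exact zero_mem _
  | add x x' _ _ h1 h2 => rw [add_mul]; exact add_mem h1 h2
  | smul c x _ h1 => rw [smul_mul_assoc]; exact Submodule.smul_mem _ c h1

/-- Translation by a principal divisor. -/
theorem EvD_translate {D D' : Divisor QBar (FB (q * M))} {f : FB (q * M)} (hf : f ≠ 0)
    (hD : ∀ v, D' v = D v + v.ord f) (n : ℕ) :
    EvD (A := A) hqM m₀ D' n =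
      (EvD hqM m₀ D n).map (LinearMap.mulLeft (GField A) (evF A hqM m₀ f⁻¹)) := by
  have key : ∀ {D D' : Divisor QBar (FB (q * M))} {g : FB (q * M)}, g ≠ 0 →
      (∀ v, D' v = D v - v.ord g) → ∀ x ∈ HD M q D n, g * x ∈ HD M q D' n := by
    intro D D' g hg hDD x hx
    rw [mem_HD] at hx ⊢
    intro v
    refine FF.ordGe_anti v (le_of_eq ?_)
      (FF.mul_mem_ordGe v (FF.mem_ordGe_of_le v (le_refl (v.ord g))) (hx v))
    rw [hDD]
    ring
  have hset : HD M q D' n = (HD M q D n).map (LinearMap.mulLeft QBar f⁻¹) := by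
    ext x
    constructor
    · intro hx
      refine ⟨f * x, key hf (fun v => by rw [hD]; ring) x hx, ?_⟩
      show f⁻¹ * (f * x) = x
      rw [← mul_assoc, inv_mul_cancel₀ hf, one_mul]
    · rintro ⟨y, hy, rfl⟩
      exact key (inv_ne_zero hf) (fun v => by rw [hD, v.ord_inv]; ring) y hy
  rw [EvD, hset]
  exact evSpan_map_mul _ _ _ (fun x => evF_mul hqM m₀ _ x) _

/-- Inertia maps the vectors of `D` to those of the moved divisor. -/
theorem sigmaG_mem_EvD (τ : A.inertiaSubgroupIn ℚ) {D : Divisor QBar (FB (q * M))} {n : ℕ}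
    {x : Fin 2 × Fin m₀ → GField A} (hx : x ∈ EvD hqM m₀ D n) :
    (fun k => sigmaG A τ (x k)) ∈ EvD hqM m₀ (galD (τ : GQ) D) n := by
  induction hx using Submodule.span_induction with
  | mem x hx =>
    obtain ⟨x, hx, rfl⟩ := hx
    rw [funext fun k => sigmaG_evF hqM m₀ τ x k]
    exact mem_evSpan _ (galois_mem_HD (τ : GQ) hx)
  | zero =>
    simp only [Pi.zero_apply, map_zero]
    exact zero_mem _
  | add x x' _ _ h1 h2 =>
    simp only [Pi.add_apply, map_add]
    exact add_mem h1 h2
  | smul c x _ h1 =>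
    simp only [Pi.smul_apply, smul_eq_mul, map_mul]
    exact Submodule.smul_mem _ (sigmaG A τ c) h1

theorem finrank_EvD_le {D : Divisor QBar (FB (q * M))} {n : ℕ} [FiniteDimensional QBar (HD M q D n)] :
    finrank (GField A) (EvD (A := A) hqM m₀ D n) ≤ finrank QBar (HD M q D n) := by
  have e := evSpan_eq_span (evF A hqM m₀) (X := HD M q D n)
    (fun i => ((Module.finBasis QBar (HD M q D n)) i : FB (q * M))) (fun i => SetLike.coe_mem _)
    (span_finBasis _).ge
  rw [EvD, e]
  exact (finrank_range_le_card _).trans (by rw [Fintype.card_fin])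

variable [CharP (Res A) q] [FF.IsFunctionField (Res A) (KM A M)]

/-- **Lifts of a basis of reductions**: their vectors have twisted residues and keep
independence. -/
theorem exists_lifts {D : Divisor QBar (FB (q * M))} {n e : ℕ} {γ : Res A} (hγ : γ ≠ 0)
    [FiniteDimensional QBar (HD M q D n)] (hdim : finrank QBar (HD M q D n) = e)
    (t : Fin 2 → LaurentSeries (Res A))
    (ht : t = ![1, algebraMap (Res A) (LaurentSeries (Res A)) γ])
    (r : Fin e → Fin 2 → LaurentSeries (Res A))
    (hr : ∀ i, t * r i ∈ LD A hqM D n)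
    (hli : LinearIndependent (LaurentSeries (Res A)) (evR q m₀ ∘ r)) :
    InjOver (evF A hqM m₀) (HD M q D n) ∧
      ∃ P : Fin e → Fin 2 × Fin m₀ → locG A,
        (∀ i k, resG A (P i k) = t k.1 * evR q m₀ (r i) k) ∧
          LinearIndependent (GField A) (rowsAt (locG A).subtype P) ∧
            spanAt (locG A).subtype P = EvD hqM m₀ D n := by
  have hX : ∀ i, ∃ x : loc2 A (iota2 M q hqM), (x : FB (q * M)) ∈ HD M q D n ∧
      red2 A (iota2 M q hqM) x = t * r i := fun i => mem_redSub.mp (hr i)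
  choose X hXD hXr using hX
  have hP : ∀ i k, ∃ h : evF A hqM m₀ (X i).1 k ∈ locG A,
      resG A ⟨_, h⟩ = t k.1 * evR q m₀ (r i) k := by
    intro i k
    obtain ⟨h, e⟩ := resG_evF hqM m₀ (X i) k
    refine ⟨h, e.trans ?_⟩
    rw [hXr, evR_apply, evR_apply, Pi.mul_apply, map_mul]
    congr 1
    rw [ht]
    rcases k with ⟨s, l⟩
    fin_cases s
    · exact map_one _
    · exact qPow_const q l γ
  choose hPm hPr using hP
  set P : Fin e → Fin 2 × Fin m₀ → locG A := fun i k => ⟨_, hPm i k⟩ with hPdef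
  have hres : LinearIndependent (LaurentSeries (Res A)) (rowsAt (resG A) P) := by
    have ht0 : ∀ k : Fin 2 × Fin m₀, t k.1 ≠ 0 := fun k => by
      rw [ht]
      rcases k with ⟨s, l⟩
      fin_cases s
      · exact one_ne_zero
      · exact (_root_.map_ne_zero _).mpr hγ
    have := hli.map' (LinearMap.mulLeft (LaurentSeries (Res A))
      (fun k : Fin 2 × Fin m₀ => t k.1)) (LinearMap.ker_eq_bot.mpr fun x y hxy =>
        funext fun k => mul_left_cancel₀ (ht0 k) (congrFun hxy k))
    rw [show rowsAt (resG A) P = ⇑(LinearMap.mulLeft (LaurentSeries (Res A))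
      (fun k : Fin 2 × Fin m₀ => t k.1)) ∘ ⇑(evR q m₀) ∘ r from
      funext fun i => funext fun k => hPr i k]
    exact this
  have hΩ : LinearIndependent (GField A) (rowsAt (locG A).subtype P) :=
    linearIndependent_rowsAt (fun _ => isUnit_of_resG_ne_zero A) hres (locG A).subtype
  have hrows : rowsAt (locG A).subtype P = evF A hqM m₀ ∘ fun i => ((X i : FB (q * M))) := rfl
  rw [hrows] at hΩ
  have hXli : LinearIndependent QBar fun i => ((X i : FB (q * M))) :=
    LinearIndependent.of_comp (evF A hqM m₀) (hΩ.restrict_scalars' QBar)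
  have hspan : Submodule.span QBar (Set.range fun i => ((X i : FB (q * M)))) = HD M q D n :=
    Submodule.eq_of_le_of_finrank_le (Submodule.span_le.mpr (Set.range_subset_iff.mpr hXD))
      (by rw [finrank_span_eq_card hXli, Fintype.card_fin, hdim])
  refine ⟨injOver_of_span _ hXD hspan.ge hΩ, P, hPr, hrows ▸ hΩ, ?_⟩
  rw [spanAt, hrows, EvD]
  exact (evSpan_eq_span _ _ hXD hspan.ge).symm

end Fermat.Agent.OrdinaryAtP.Coord

end
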