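import Fermat.Agent.OrdinaryAtP.Statement
import Fermat.Agent.Semistable.LocalTheory
import Fermat.Agent.RT.Mazur.Injective

/-!
# Divisors of moved classes have reductions twisted by a constant

A moved class of the Jacobian of level `q M` has a Kummer function of `q`-power order with constant
reductions, so its gluing is constant.
-/

set_option autoImplicit false
set_option synthInstance.maxHeartbeats 400000
set_option maxHeartbeats 1000000
set_option linter.unusedSectionVars false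

noncomputable section

namespace Fermat.Agent.OrdinaryAtP.Coord

open ModularCurve AlgebraicCurve
open Fermat.Agent.Semistable Fermat.Agent.RT.Mazur
open Arith (QBar GQ)
open scoped Pointwise

variable {A : ValuationSubring QBar} {q : ℕ} [hq : Fact q.Prime] [CharP (Res A) q]
  {M : ℕ} [NeZero M] [FF.IsFunctionField (Res A) (KM A M)] (h : Setup A M q)

/-- The pair `(1, γ)`. -/
def gam (γ : Res A) : Fin 2 → LaurentSeries (Res A) :=
  ![1, algebraMap (Res A) (LaurentSeries (Res A)) γ]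

theorem gam_ne_zero {γ : Res A} (hγ : γ ≠ 0) (s : Fin 2) : gam γ s ≠ 0 := by
  fin_cases s
  · exact one_ne_zero
  · exact (_root_.map_ne_zero _).mpr hγ

/-- The reductions of `L(n ∞ + D)` are those of `L(n ∞)` twisted by a constant. -/
def Twisted (D : Divisor QBar (FB (q * M))) : Prop :=
  ∃ γ : Res A, γ ≠ 0 ∧ ∃ n₀ : ℕ, ∀ n, n₀ ≤ n →
    LD A h.hqM D n = (Bn A M q h.hqM n).map (mulPair (gam γ))

/-- Pairs glued by a constant. -/
theorem exists_glued_const : ∃ n₀ : ℕ, ∀ n, n₀ ≤ n → ∀ γ : Res A, γ ≠ 0 →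
    glued h (fun _ => γ) n = (Bn A M q h.hqM n).map (mulPair (gam γ)) := by
  obtain ⟨n₁, hn₁⟩ := h.exists_glued
  refine ⟨n₁, fun n hn γ hγ => ?_⟩
  rw [← (hn₁ n hn).2]
  have hser : ∀ (c : Res A) (b : Rk A M), serR A M (c • b) =
      algebraMap (Res A) (LaurentSeries (Res A)) c * serR A M b := fun c b => by
    rw [Algebra.smul_def, map_mul, serR_algebraMap]
  ext r
  rw [h.mem_glued, Submodule.mem_map]
  constructor
  · rintro ⟨a, b, ha, hb, rfl, hc⟩
    refine ⟨![serR A M a, serR A M (γ⁻¹ • b)], h.mem_glued.mpr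
      ⟨a, γ⁻¹ • b, ha, Submodule.smul_mem _ _ hb, rfl, fun χ => ?_⟩, ?_⟩
    · rw [map_smul, hc χ, smul_eq_mul, ← mul_assoc, inv_mul_cancel₀ hγ, Pi.one_apply]
    · funext s
      show gam γ s * ![serR A M a, serR A M (γ⁻¹ • b)] s = ![serR A M a, serR A M b] s
      fin_cases s
      · simp [gam]
      · simp [gam, hser, hγ]
  · rintro ⟨_, hr, rfl⟩
    obtain ⟨a, b, ha, hb, rfl, hc⟩ := h.mem_glued.mp hr
    refine ⟨a, γ • b, ha, Submodule.smul_mem _ _ hb, ?_, fun χ => ?_⟩
    · funext s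
      show gam γ s * ![serR A M a, serR A M b] s = ![serR A M a, serR A M (γ • b)] s
      fin_cases s
      · simp [gam]
      · simp [gam, hser]
    · rw [map_smul, hc χ, Pi.one_apply, one_mul, smul_eq_mul]

include h

/-- A Kummer function of `q`-power order gives a constant gluing. -/
theorem twisted_of_hasKummer (h4 : 4 ∣ M) {D : Divisor QBar (FB (q * M))} {n : ℕ}
    {a : Fin 2 → Res A} (hk : HasKummer h D (q ^ n) a) : Twisted h D := by
  obtain ⟨c, hc, hca⟩ := hk.exists_isGlue (pow_ne_zero _ hq.out.ne_zero)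
  obtain ⟨χ⟩ := nonempty_pt h h4
  obtain ⟨n₁, hn₁⟩ := exists_glued_const h
  obtain ⟨n₂, hn₂⟩ := hc
  refine ⟨c χ, (hca χ).1, n₁ + n₂, fun m hm => ?_⟩
  have e : c = fun _ => c χ := funext fun χ' => by
    have h1 := (hca χ').2.trans (hca χ).2.symm
    have ha : a 1 ≠ 0 := fun h0 => hk.1 1 h0
    exact iterateFrobenius_inj (Res A) q n (by
      simpa [iterateFrobenius_def] using mul_left_cancel₀ ha h1)
  rw [hn₂ m (by omega), ← hn₁ m (by omega) _ (hca χ).1, ← e]

/-- Raising a Kummer function to a power. -/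
theorem hasKummer_pow {D : Divisor QBar (FB (q * M))} {m : ℕ} {a : Fin 2 → Res A}
    (hk : HasKummer h D m a) (k : ℕ) : HasKummer h D (m * k) (a ^ k) := by
  obtain ⟨ha, f, hord, hred⟩ := hk
  refine ⟨fun s => pow_ne_zero _ (ha s), f ^ k, fun v => ?_, fun s => ?_⟩
  · rw [SubmonoidClass.coe_pow, FF.ord_pow, hord]
    push_cast
    ring
  · rw [map_pow, Pi.pow_apply, hred, Pi.pow_apply, map_pow]

/-- A class has a divisor with a Kummer function of `q`-power order. -/
def HasKummerClass (y : JZero (q * M)) : Prop :=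
  ∃ (D : Divisor.degZero (K := QBar) (F := FB (q * M))) (n : ℕ) (a : Fin 2 → Res A),
    Pic0.mk D = y ∧ HasKummer h (D : Divisor QBar (FB (q * M))) (q ^ n) a

theorem hasKummerClass_moved {y : JZero (q * M)} (hy : y ∈ movedGroup A (q * M) q) :
    HasKummerClass h y := by
  refine AddSubgroup.closure_induction (p := fun y _ => HasKummerClass h y) ?_ ?_ ?_ ?_ hy
  · rintro _ ⟨τ, hτ, x, n, hn, rfl⟩
    obtain ⟨E, rfl⟩ := Pic0.mk_surjective x
    have hmk : q ^ n • Pic0.mk E = Pic0.mk (q ^ n • E) :=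
      (map_nsmul (QuotientAddGroup.mk' ((Divisor.principal (K := QBar)
        (F := FB (q * M))).addSubgroupOf (Divisor.degZero (K := QBar) (F := FB (q * M))))) _ E).symm
    obtain ⟨f, hf, hfD⟩ : Divisor.IsPrincipal
        ((q ^ n • E : Divisor.degZero (K := QBar) (F := FB (q * M))) :
          Divisor QBar (FB (q * M))) :=
      AddSubgroup.mem_addSubgroupOf.mp ((QuotientAddGroup.eq_zero_iff _).mp (hmk.symm.trans hn))
    have hord : ∀ v, v.ord f = ((q ^ n : ℕ) : ℤ) * (E : Divisor QBar (FB (q * M))) v := fun v => by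
      rw [← hfD, AddSubmonoidClass.coe_nsmul, Finsupp.smul_apply, nsmul_eq_mul]
    obtain ⟨a, hk⟩ := h.hasKummer_inertia hτ hf hord
    exact ⟨SemilinearAut.degZeroSMulHom (arithmeticGalois (modularFunctionFieldFull (q * M)) τ) E - E,
      n, a, rfl, by rwa [AddSubgroupClass.coe_sub, SemilinearAut.coe_degZeroSMulHom]⟩
  · exact ⟨0, 0, 1, rfl, by rw [pow_zero, ZeroMemClass.coe_zero]; exact HasKummer.zero 1⟩
  · rintro _ _ - - ⟨D, n, a, rfl, hk⟩ ⟨D', n', a', rfl, hk'⟩
    refine ⟨D + D', n + n', a ^ (q ^ n') * a' ^ (q ^ n), rfl, ?_⟩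
    rw [AddMemClass.coe_add]
    refine HasKummer.add ?_ ?_
    · have := hasKummer_pow h hk (q ^ n')
      rwa [← pow_add] at this
    · have := hasKummer_pow h hk' (q ^ n)
      rwa [← pow_add, add_comm n' n] at this
  · rintro _ - ⟨D, n, a, rfl, hk⟩
    exact ⟨-D, n, a⁻¹, rfl, by rw [NegMemClass.coe_neg]; exact hk.neg⟩

/-- **Moved classes are twisted.** -/
theorem exists_twisted (h4 : 4 ∣ M) {y : JZero (q * M)} (hy : y ∈ movedGroup A (q * M) q) :
    ∃ D : Divisor.degZero (K := QBar) (F := FB (q * M)),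
      Pic0.mk D = y ∧ Twisted h (D : Divisor QBar (FB (q * M))) := by
  obtain ⟨D, n, a, rfl, hk⟩ := hasKummerClass_moved h hy
  exact ⟨D, rfl, twisted_of_hasKummer h h4 hk⟩

end Fermat.Agent.OrdinaryAtP.Coord

end
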