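import Fermat.Agent.OrdinaryAtP.Coord.Residual
import Fermat.Agent.OrdinaryAtP.Coord.Moved
import Fermat.Agent.OrdinaryAtP.Coord.Coords
import Fermat.Agent.OrdinaryAtP.Coord.Chart

/-!
# A degree for a finite group of moved classes, and the residual frame

For a finite group of moved classes we fix divisors and a degree `n` past all thresholds. The
residual space of degree `n` gets a rational basis, a chart and routes along its edges.
-/

set_option autoImplicit false
set_option synthInstance.maxHeartbeats 400000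
set_option maxHeartbeats 1000000
set_option linter.unusedSectionVars false

noncomputable section

namespace Fermat.Agent.OrdinaryAtP.Coord

open ModularCurve AlgebraicCurve Module
open Fermat.Agent.Semistable Fermat.Agent.RT.Mazur
open Arith (QBar GQ)
open scoped Pointwise

section Colon

variable {k Ω V κ : Type*} [Field k] [Field Ω] [Algebra k Ω] [AddCommGroup V] [Module k V]
  {ev : V →ₗ[k] (κ → Ω)}

/-- The colon space of an image is the image of the colon space. -/
theorem colon_evSpan_le {S X Z : Submodule k V} [FiniteDimensional k S] (hS : InjOver ev S)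
    (μ : V →ₗ[k] V) (e : κ → Ω) (he : ∀ x, e x ≠ 0) (hμ : ∀ x, ev (μ x) = e * ev x)
    (hX : X ≤ S) (hμX : X.map μ ≤ S) (hZ : ∀ f ∈ X, μ f ∈ X → f ∈ Z) :
    colonSp (evSpan ev X) e ≤ evSpan ev Z := by
  rintro c ⟨hc, hec⟩
  have h1 : e * c ∈ evSpan ev (X.map μ) ⊓ evSpan ev X :=
    ⟨by rw [evSpan_map_mul ev μ e hμ]; exact ⟨c, hc, rfl⟩, hec⟩
  rw [evSpan_inf hS hμX hX] at h1
  have h2 : X.map μ ⊓ X ≤ Z.map μ := by
    rintro _ ⟨⟨f, hf, rfl⟩, hf'⟩
    exact ⟨f, hZ f hf hf', rfl⟩
  obtain ⟨c', hc', hcc⟩ : e * c ∈ (evSpan ev Z).map (LinearMap.mulLeft Ω e) := by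
    rw [← evSpan_map_mul ev μ e hμ]
    exact evSpan_mono ev h2 h1
  have : c' = c := funext fun x => mul_left_cancel₀ (he x) (congrFun hcc x)
  exact this ▸ hc'

theorem colonSp_map_mul {F : Type*} [Field F] (X : Submodule F (κ → F)) (u T : κ → F)
    (hT : ∀ x, T x ≠ 0) :
    colonSp (X.map (LinearMap.mulLeft F T)) u = (colonSp X u).map (LinearMap.mulLeft F T) := by
  ext c
  constructor
  · rintro ⟨⟨a, ha, rfl⟩, b, hb, hab⟩
    refine ⟨a, ⟨ha, ?_⟩, rfl⟩
    have : b = u * a := funext fun x => mul_left_cancel₀ (hT x)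
      ((congrFun hab x).trans (mul_left_comm (u x) (T x) (a x)))
    show u * a ∈ X
    rwa [← this]
  · rintro ⟨a, ⟨ha, hua⟩, rfl⟩
    exact ⟨⟨a, ha, rfl⟩, u * a, hua, mul_left_comm T u a⟩

theorem mulLeft_pi_injective {F : Type*} [Field F] {T : κ → F} (hT : ∀ x, T x ≠ 0) :
    Function.Injective (LinearMap.mulLeft F T) := fun _ _ h =>
  funext fun x => mul_left_cancel₀ (hT x) (congrFun h x)

theorem finrank_map_mul {F : Type*} [Field F] (X : Submodule F (κ → F)) {T : κ → F}
    (hT : ∀ x, T x ≠ 0) : finrank F (X.map (LinearMap.mulLeft F T)) = finrank F X :=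
  ((Submodule.equivMapOfInjective _ (mulLeft_pi_injective hT) X).finrank_eq).symm

end Colon

variable {A : ValuationSubring QBar} {q : ℕ} [hq : Fact q.Prime] [CharP (Res A) q]
  {M : ℕ} [NeZero M] [FF.IsFunctionField (Res A) (KM A M)]

theorem evR_mul {m₀ : ℕ} (x y : Fin 2 → LaurentSeries (Res A)) :
    evR q m₀ (x * y) = evR q m₀ x * evR q m₀ y :=
  funext fun _ => by simp only [evR_apply, Pi.mul_apply, map_mul]

theorem evR_one {m₀ : ℕ} : evR q m₀ (1 : Fin 2 → LaurentSeries (Res A)) = 1 :=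
  funext fun _ => by simp only [evR_apply, Pi.one_apply, map_one]

theorem evR_jPow_ne_zero {m₀ : ℕ} (k : ℕ) (x : Fin 2 × Fin m₀) :
    evR q m₀ (jPow A q k) x ≠ 0 := by
  rw [evR_apply]
  exact (_root_.map_ne_zero _).mpr (jPow_ne_zero k x.1)

variable {h : Setup A M q}

variable (h) in
/-- Divisors for a group of moved classes, and a degree past all thresholds. -/
structure Frame (G : AddSubgroup (JZero (q * M))) where
  /-- the degree -/
  n : ℕ
  /-- the divisors -/
  D : G → Divisor.degZero (K := QBar) (F := FB (q * M))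
  cls : ∀ y, Pic0.mk (D y) = (y : JZero (q * M))
  twist : ∀ y, ∃ γ : Res A, γ ≠ 0 ∧ ∀ m, n ≤ m →
    LD A h.hqM (D y : Divisor QBar (FB (q * M))) m = (Bn A M q h.hqM m).map (mulPair (gam γ))
  dimHD : ∀ E : Divisor QBar (FB (q * M)), Divisor.degree E = 0 → ∀ m, n ≤ m →
    finrank QBar (HD M q E m) = finrank QBar (HN M q m)
  mulB : Bn A M q h.hqM (n + n) ≤ Submodule.span (Res A)
    {x | ∃ r ∈ Bn A M q h.hqM n, ∃ s ∈ Bn A M q h.hqM n, x = r * s}
  colonB : ∀ f ∈ Bn A M q h.hqM (n + n), jPow A q n * f ∈ Bn A M q h.hqM (n + n) →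
    f ∈ Bn A M q h.hqM n
  constB : ∀ f ∈ Bn A M q h.hqM n, jPow A q n * f ∈ Bn A M q h.hqM n → ∃ β : Res A, f = β • 1

theorem exists_frame (h4 : 4 ∣ M) (G : AddSubgroup (JZero (q * M))) [Finite G]
    (hG : G ≤ movedGroup A (q * M) q) : Nonempty (Frame h G) := by
  classical
  have := Fintype.ofFinite G
  choose D hD γ hγ N hN using fun y : G => exists_twisted h h4 (hG y.2)
  obtain ⟨n₁, hn₁⟩ := exists_finrank_HD (M := M) (q := q)
  obtain ⟨n₂, hn₂⟩ := exists_Bn_mul h
  obtain ⟨n₃, hn₃⟩ := exists_colon_Bn h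
  obtain ⟨n₄, hn₄⟩ := exists_colon_const h h4
  set n := n₁ + n₂ + n₃ + n₄ + ∑ y, N y with hn
  have hle : ∀ y, N y ≤ n := fun y =>
    (Finset.single_le_sum (fun y _ => Nat.zero_le (N y)) (Finset.mem_univ y)).trans
      (Nat.le_add_left _ _)
  exact ⟨⟨n, D, hD, fun y => ⟨γ y, hγ y, fun m hm => hN y m ((hle y).trans hm)⟩,
    fun E hE m hm => hn₁ E hE m (by omega), hn₂ n (by omega), hn₃ n (by omega), hn₄ n (by omega)⟩⟩

namespace Frame

variable {G : AddSubgroup (JZero (q * M))} (F : Frame h G)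

/-- The number of substitutions. -/
abbrev m₀ : ℕ := finrank (Res A) (Bn A M q h.hqM (F.n + F.n + F.n))

/-- The places of evaluation. -/
abbrev Pl : Type := Fin 2 × Fin F.m₀

/-- The dimension. -/
abbrev d : ℕ := finrank (Res A) (Bn A M q h.hqM F.n)

theorem finrank_Bn_le {m : ℕ} (hm : m ≤ F.n + F.n + F.n) :
    finrank (Res A) (Bn A M q h.hqM m) ≤ F.m₀ :=
  have := (finrank_Bn M q h.hqM h.hA (F.n + F.n + F.n)).1
  Submodule.finrank_mono (h.Bn_mono hm)

theorem injOver_res {m : ℕ} (hm : m ≤ F.n + F.n + F.n) :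
    InjOver (evR q F.m₀) (Bn A M q h.hqM m) :=
  have := (finrank_Bn M q h.hqM h.hA m).1
  injOver_evR q _ (fun _ hx => coeffMap_frobenius_mem_Bn h hx) (F.finrank_Bn_le hm)

theorem _root_.Fermat.Agent.Semistable.Setup.exists_basis (h : Setup A M q) (m : ℕ) : ∃ r : Fin (finrank (Res A) (Bn A M q h.hqM m)) →
      Fin 2 → LaurentSeries (Res A),
    (∀ i, r i ∈ Bn A M q h.hqM m) ∧ (∀ i, IsRat q (r i)) ∧ LinearIndependent (Res A) r ∧
      Submodule.span (Res A) (Set.range r) = Bn A M q h.hqM m :=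
  have := (finrank_Bn M q h.hqM h.hA m).1
  exists_rat_basis q _ fun _ hx => coeffMap_frobenius_mem_Bn h hx

/-- The residual rows. -/
def P0 : Fin F.d → F.Pl → LaurentSeries (Res A) :=
  evR q F.m₀ ∘ (h.exists_basis F.n).choose

theorem P0_li : LinearIndependent (LaurentSeries (Res A)) F.P0 :=
  moore q _ (h.exists_basis F.n).choose_spec.2.1 (h.exists_basis F.n).choose_spec.2.2.1
    (F.finrank_Bn_le (by omega))

theorem span_P0 : Submodule.span (LaurentSeries (Res A)) (Set.range F.P0) =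
    evSpan (evR q F.m₀) (Bn A M q h.hqM F.n) := by
  obtain ⟨hr, -, -, hspan⟩ := (h.exists_basis F.n).choose_spec
  unfold P0
  generalize (h.exists_basis F.n).choose = r at hr hspan ⊢
  rw [evSpan_eq_span (evR q F.m₀) (X := Bn A M q h.hqM F.n) r hr hspan.ge]

theorem one_le_d : 1 ≤ F.d := by
  have := (finrank_Bn M q h.hqM h.hA F.n).1
  refine Submodule.one_le_finrank_iff.mpr fun h0 => ?_
  have h1 : (1 : Fin 2 → LaurentSeries (Res A)) ∈ Bn A M q h.hqM F.n := h.one_mem_Bn F.n
  rw [h0, Submodule.mem_bot] at h1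
  exact one_ne_zero (congrFun h1 0)

/-- The chosen places. -/
def I : Fin F.d → F.Pl := (exists_minor F.P0_li).choose

theorem isUnit_minor : IsUnit (minorAt F.I F.P0).det :=
  (Matrix.isUnit_iff_isUnit_det _).mp (exists_minor F.P0_li).choose_spec

/-- The edges. -/
abbrev E : Fin F.d → F.Pl → Prop := edges F.I F.P0

/-- The root. -/
def root : F.Pl := F.I ⟨0, F.one_le_d⟩

theorem goodRows0 : GoodRows F.I F.E F.P0 := goodRows_edges F.isUnit_minor

theorem nonempty_route (k : F.Pl) : Nonempty (Route F.I F.E F.root k) := by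
  have hB := (finrank_Bn M q h.hqM h.hA (F.n + F.n)).1
  refine exists_route F.isUnit_minor F.root (evR q F.m₀ (jPow A q F.n)) ?_ ?_ ?_ k
  · rw [span_P0, ← evR_one]
    exact mem_evSpan _ (h.one_mem_Bn F.n)
  · rw [span_P0]
    exact mem_evSpan _ (jPow_mem_Bn h F.n)
  · rw [span_P0]
    intro c hc huc
    have hle := colon_evSpan_le (F.injOver_res (m := F.n + F.n) (by omega))
      (mulPair (jPow A q F.n)) _ (evR_jPow_ne_zero F.n) (fun x => evR_mul _ x)
      (h.Bn_mono (Nat.le_add_right F.n F.n))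
      (by rintro _ ⟨f, hf, rfl⟩; exact h.mul_mem_Bn (jPow_mem_Bn h F.n) hf)
      (Z := Submodule.span (Res A) {(1 : Fin 2 → LaurentSeries (Res A))})
      (fun f hf hjf => by
        obtain ⟨β, rfl⟩ := F.constB f hf hjf
        exact Submodule.smul_mem _ _ (Submodule.mem_span_singleton_self _))
    have h1 := hle ⟨hc, huc⟩
    rw [evSpan_eq_span (evR q F.m₀) (fun _ : Unit => (1 : Fin 2 → LaurentSeries (Res A)))
      (fun _ => Submodule.mem_span_singleton_self _) (by rw [Set.range_const]),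
      Set.range_comp, Set.range_const, Set.image_singleton, evR_one,
      Submodule.mem_span_singleton] at h1
    obtain ⟨a, ha⟩ := h1
    exact ⟨a, ha.symm⟩

/-- The routes. -/
def rt (k : F.Pl) : Route F.I F.E F.root k := (F.nonempty_route k).some

/-- The common residue of the coordinates. -/
def Z0 : Fin F.d → F.Pl → LaurentSeries (Res A) := normC F.rt F.P0

/-- The torus of the residual chart. -/
def T0 : F.Pl → LaurentSeries (Res A) := normTorus F.rt F.P0

theorem T0_ne_zero (k : F.Pl) : F.T0 k ≠ 0 := normTorus_ne_zero F.goodRows0 k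

theorem span_Z0 : Submodule.span (LaurentSeries (Res A)) (Set.range F.Z0) =
    (evSpan (evR q F.m₀) (Bn A M q h.hqM F.n)).map
      (LinearMap.mulLeft (LaurentSeries (Res A)) F.T0) := by
  rw [Z0, span_normC F.goodRows0, span_P0]
  rfl

theorem finrank_evSpan_n : finrank (LaurentSeries (Res A))
    (evSpan (evR q F.m₀) (Bn A M q h.hqM F.n)) = F.d := by
  rw [← span_P0, finrank_span_eq_card F.P0_li, Fintype.card_fin]

end Frame

end Fermat.Agent.OrdinaryAtP.Coord

end
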