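import Fermat.Agent.RT.Mazur.OrdersBasic
import Mathlib.RingTheory.IntegralClosure.IsIntegralClosure.Basic
import Mathlib.RingTheory.PrincipalIdealDomain

/-!
# The Gauss field and its inertia invariants

The series which are quotients of integral series form a field with a valuation ring (`locS`).
The invariant integers under inertia form a principal ideal ring with uniformiser `q`.
Equivariant integral functions on a finite set with constant residues are integral over it, and
inverses of those with nonzero residue are polynomials in them.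
-/

set_option autoImplicit false
set_option linter.unusedSectionVars false

noncomputable section

namespace Fermat.Agent.OrdinaryAtP.Coord

open Polynomial ModularCurve
open Fermat.Agent.Arith Fermat.Agent.Semistable Fermat.Agent.RT.Mazur
open scoped Pointwise

variable (A : ValuationSubring QBar)

/-- The field of quotients of integral series. -/
abbrev GField : Type := fracS A

instance instAlgebraGField : Algebra QBar (GField A) :=
  ((algebraMap QBar LSer).codRestrict (fracS A) fun a => algebraMap_mem_fracS a).toAlgebra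

theorem coe_algebraMap_GField (a : QBar) :
    ((algebraMap QBar (GField A) a : GField A) : LSer) = algebraMap QBar LSer a := rfl

/-- The integral elements. -/
def locG : Subring (GField A) := (locS A).comap (fracS A).subtype

theorem mem_locG {x : GField A} : x ∈ locG A ↔ (x : LSer) ∈ locS A := Iff.rfl

/-- The residue map. -/
def resG : locG A →+* LaurentSeries (Res A) :=
  (redL A).comp (((fracS A).subtype.comp (locG A).subtype).codRestrict (locS A) fun x => x.2)

theorem resG_apply (x : locG A) : resG A x = redL A ⟨((x : GField A) : LSer), x.2⟩ := rfl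

theorem isUnit_of_resG_ne_zero {x : locG A} (hx : resG A x ≠ 0) : IsUnit x := by
  obtain ⟨h, -⟩ := inv_mem_locS (x := ((x : GField A) : LSer)) x.2 hx
  have h0 : ((x : GField A) : LSer) ≠ 0 := IsGUnit.ne_zero ⟨x.2, hx⟩
  refine isUnit_iff_exists_inv.mpr ⟨⟨(x : GField A)⁻¹, h⟩, Subtype.ext ?_⟩
  exact mul_inv_cancel₀ fun h' => h0 (congrArg Subtype.val h')

theorem coeffMap_mem_fracS (τ : A.inertiaSubgroupIn ℚ) {x : LSer} (hx : x ∈ fracS A) :
    coeffMap ((τ : GQ) : QBar →+* QBar) x ∈ fracS A := by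
  obtain ⟨a, ha, b, hb, hb0, h⟩ := mem_fracS.mp hx
  exact mem_fracS.mpr ⟨_, (isInertial_of_mem τ.2).coeffMap_mem ha, _,
    (isInertial_of_mem τ.2).coeffMap_mem hb, (_root_.map_ne_zero _).mpr hb0, by rw [← map_mul, h]⟩

theorem coeffMap_mul_apply (σ τ : GQ) (x : LSer) :
    coeffMap (σ : QBar →+* QBar) (coeffMap (τ : QBar →+* QBar) x) =
      coeffMap ((σ * τ : GQ) : QBar →+* QBar) x := by
  rw [coeffMap_coeffMap]
  rfl

theorem coeffMap_one_apply (x : LSer) : coeffMap ((1 : GQ) : QBar →+* QBar) x = x := by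
  rw [show ((1 : GQ) : QBar →+* QBar) = RingHom.id QBar from RingHom.ext fun _ => rfl, coeffMap_id]

/-- Inertia on the Gauss field. -/
def sigmaG (τ : A.inertiaSubgroupIn ℚ) : GField A ≃+* GField A where
  toFun x := ⟨coeffMap ((τ : GQ) : QBar →+* QBar) x, coeffMap_mem_fracS A τ x.2⟩
  invFun x := ⟨coeffMap (((τ⁻¹ : A.inertiaSubgroupIn ℚ) : GQ) : QBar →+* QBar) x,
    coeffMap_mem_fracS A τ⁻¹ x.2⟩
  left_inv x := Subtype.ext <| by
    show coeffMap _ (coeffMap _ (x : LSer)) = (x : LSer)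
    rw [coeffMap_mul_apply, ← Subgroup.coe_mul, inv_mul_cancel, Subgroup.coe_one,
      coeffMap_one_apply]
  right_inv x := Subtype.ext <| by
    show coeffMap _ (coeffMap _ (x : LSer)) = (x : LSer)
    rw [coeffMap_mul_apply, ← Subgroup.coe_mul, mul_inv_cancel, Subgroup.coe_one,
      coeffMap_one_apply]
  map_mul' x y := Subtype.ext (map_mul _ _ _)
  map_add' x y := Subtype.ext (map_add _ _ _)

theorem coe_sigmaG (τ : A.inertiaSubgroupIn ℚ) (x : GField A) :
    (sigmaG A τ x : LSer) = coeffMap ((τ : GQ) : QBar →+* QBar) x := rfl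

theorem sigmaG_mem_locG (τ : A.inertiaSubgroupIn ℚ) {x : GField A} (hx : x ∈ locG A) :
    ∃ h : sigmaG A τ x ∈ locG A, resG A ⟨_, h⟩ = resG A ⟨x, hx⟩ := by
  obtain ⟨h, e⟩ := (isInertial_of_mem τ.2).coeffMap_mem_locS (x := (x : LSer)) hx
  exact ⟨h, e⟩

/-- The invariant integers. -/
def gaussW : Subring (GField A) where
  carrier := {x | x ∈ locG A ∧ ∀ τ, sigmaG A τ x = x}
  one_mem' := ⟨one_mem _, fun _ => map_one _⟩
  mul_mem' ha hb := ⟨mul_mem ha.1 hb.1, fun τ => by rw [map_mul, ha.2, hb.2]⟩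
  zero_mem' := ⟨zero_mem _, fun _ => map_zero _⟩
  add_mem' ha hb := ⟨add_mem ha.1 hb.1, fun τ => by rw [map_add, ha.2, hb.2]⟩
  neg_mem' ha := ⟨neg_mem ha.1, fun τ => by rw [map_neg, ha.2]⟩

/-- The inclusion in the integers. -/
def wToLoc : gaussW A →+* locG A :=
  (gaussW A).subtype.codRestrict (locG A) fun w => w.2.1

/-- The residue map of the invariant integers. -/
def resGW : gaussW A →+* LaurentSeries (Res A) := (resG A).comp (wToLoc A)

theorem inertiaFixed_coe (w : gaussW A) : InertiaFixed A ((w : GField A) : LSer) :=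
  fun τ hτ => congrArg Subtype.val (w.2.2 ⟨τ, hτ⟩)

variable {A}
variable {q : ℕ} [hq : Fact q.Prime] (hA : A.LiesOverPrime q)

theorem natCast_gaussW_ne_zero : (q : gaussW A) ≠ 0 := by
  intro h
  have h1 : ((q : GField A) : LSer) = 0 := by
    have := congrArg (fun w : gaussW A => ((w : GField A) : LSer)) h
    simpa using this
  simp only [SubringClass.coe_natCast] at h1
  rw [← map_natCast (algebraMap QBar LSer)] at h1
  exact hq.out.ne_zero (by exact_mod_cast (_root_.map_eq_zero _).mp h1)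

include hA

theorem resGW_natCast : resGW A (q : gaussW A) = 0 := by
  have : ((q : QBar)) ∈ A.nonunits := hA
  have hqA : (q : QBar) ∈ A := natCast_mem A q
  rw [map_natCast, ← map_natCast (algebraMap (Res A) (LaurentSeries (Res A))),
    ← map_natCast (IsLocalRing.residue A), _root_.map_eq_zero]
  exact (residue_eq_zero_iff hqA).mpr this

theorem not_isUnit_natCast_gaussW : ¬ IsUnit (q : gaussW A) := fun h =>
  (h.map (resGW A)).ne_zero (resGW_natCast hA)

/-- Invariant elements are powers of `q` times units of the invariant integers. -/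
theorem exists_zpow_mul_unit_gaussW {x : GField A} (hx : x ≠ 0) (hfix : ∀ τ, sigmaG A τ x = x) :
    ∃ (k : ℤ) (u : (gaussW A)ˣ), x = algebraMap QBar (GField A) ((q : QBar) ^ k) * (u : gaussW A) := by
  have hf : InertiaFixed A (x : LSer) := fun τ hτ => congrArg Subtype.val (hfix ⟨τ, hτ⟩)
  obtain ⟨k, hk⟩ := exists_zpow_isGUnit hA hq.out x.2 (fun h => hx (Subtype.ext h)) hf
  set c : GField A := algebraMap QBar (GField A) ((q : QBar) ^ (-k)) with hc
  have hcfix : ∀ τ, sigmaG A τ c = c := fun τ => Subtype.ext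
    (inertiaFixed_natCast_zpow (A := A) q (-k) τ.1 τ.2)
  have hfy : ∀ τ, sigmaG A τ (c * x) = c * x := fun τ => by rw [map_mul, hcfix, hfix]
  have hy : c * x ∈ locG A := hk.1
  have hy0 : c * x ≠ 0 := fun h => hk.ne_zero (by
    rw [← coe_algebraMap_GField, ← MulMemClass.coe_mul, h]; rfl)
  have hyi : (c * x)⁻¹ ∈ locG A := hk.inv.1
  refine ⟨k, ⟨⟨c * x, hy, hfy⟩, ⟨(c * x)⁻¹, hyi, fun τ => by rw [map_inv₀, hfy]⟩,
    Subtype.ext (mul_inv_cancel₀ hy0), Subtype.ext (inv_mul_cancel₀ hy0)⟩, ?_⟩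
  show x = _ * (c * x)
  rw [← mul_assoc, hc, ← map_mul, ← zpow_add₀ (Nat.cast_ne_zero.mpr hq.out.ne_zero),
    add_neg_cancel, zpow_zero, map_one, one_mul]

theorem exists_pow_mul_unit_gaussW {w : gaussW A} (hw : w ≠ 0) :
    ∃ (n : ℕ) (u : (gaussW A)ˣ), w = (q : gaussW A) ^ n * u := by
  obtain ⟨k, u, hk⟩ := exists_zpow_mul_unit_gaussW hA (x := (w : GField A))
    (fun h => hw (Subtype.ext h)) w.2.2
  rcases Int.eq_nat_or_neg k with ⟨n, rfl | rfl⟩
  · exact ⟨n, u, Subtype.ext (by push_cast; rw [hk, zpow_natCast, map_pow, map_natCast])⟩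
  · rw [zpow_neg, map_inv₀, zpow_natCast, map_pow, map_natCast] at hk
    rcases Nat.eq_zero_or_pos n with rfl | hn
    · exact ⟨0, u, Subtype.ext (by simpa using hk)⟩
    exfalso
    refine not_isUnit_natCast_gaussW hA ((isUnit_pow_iff hn.ne').mp
      (IsUnit.of_mul_eq_one (w * ↑(u⁻¹)) (Subtype.ext ?_)))
    have h1 : ((u : gaussW A) : GField A) * ((↑(u⁻¹) : gaussW A) : GField A) = 1 := by
      rw [← Subring.coe_mul, Units.mul_inv, Subring.coe_one]
    have h2 : (q : GField A) ≠ 0 := fun h => natCast_gaussW_ne_zero (A := A) (q := q)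
      (Subtype.ext (by simpa using h))
    push_cast
    rw [hk]
    field_simp
    linear_combination h1

theorem isPrincipalIdealRing_gaussW : IsPrincipalIdealRing (gaussW A) := by
  classical
  refine ⟨fun I => ?_⟩
  rcases eq_or_ne I ⊥ with rfl | hI
  · exact bot_isPrincipal
  obtain ⟨x, hxI, hx⟩ := Submodule.exists_mem_ne_zero_of_ne_bot hI
  have hex : ∃ n, (q : gaussW A) ^ n ∈ I := by
    obtain ⟨n, u, rfl⟩ := exists_pow_mul_unit_gaussW hA hx
    exact ⟨n, by simpa using I.mul_mem_right (↑(u⁻¹) : gaussW A) hxI⟩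
  refine ⟨(q : gaussW A) ^ Nat.find hex, le_antisymm (fun y hy => ?_) ?_⟩
  · rcases eq_or_ne y 0 with rfl | hy0
    · exact zero_mem _
    obtain ⟨n, u, rfl⟩ := exists_pow_mul_unit_gaussW hA hy0
    have hn : Nat.find hex ≤ n :=
      Nat.find_le (by simpa using I.mul_mem_right (↑(u⁻¹) : gaussW A) hy)
    exact Ideal.mem_span_singleton.mpr (dvd_mul_of_dvd_left (pow_dvd_pow _ hn) _)
  · exact (Ideal.span_singleton_le_iff_mem I).mpr (Nat.find_spec hex)

/-- Invariant elements are fractions. -/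
theorem exists_mul_mem_gaussW {x : GField A} (hfix : ∀ τ, sigmaG A τ x = x) :
    ∃ w : gaussW A, w ≠ 0 ∧ (w : GField A) * x ∈ gaussW A := by
  rcases eq_or_ne x 0 with rfl | hx
  · exact ⟨1, one_ne_zero, by rw [mul_zero]; exact zero_mem _⟩
  obtain ⟨k, u, rfl⟩ := exists_zpow_mul_unit_gaussW hA hx hfix
  refine ⟨(q : gaussW A) ^ (-k).toNat, pow_ne_zero _ (natCast_gaussW_ne_zero (A := A) (q := q)), ?_⟩
  have hq0 : (q : QBar) ≠ 0 := Nat.cast_ne_zero.mpr hq.out.ne_zero
  push_cast
  rw [← map_natCast (algebraMap QBar (GField A)), ← map_pow, ← map_zpow₀, ← mul_assoc, ← map_mul,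
    ← zpow_natCast, ← zpow_add₀ hq0, show ((-k).toNat : ℤ) + k = (k.toNat : ℤ) by omega,
    zpow_natCast, map_pow, map_natCast]
  exact mul_mem (pow_mem (natCast_mem _ q) _) (u : gaussW A).2

theorem natCast_dvd_of_resGW_eq_zero {w : gaussW A} (hw : resGW A w = 0) :
    (q : gaussW A) ∣ w := by
  rcases eq_or_ne w 0 with rfl | hw0
  · exact dvd_zero _
  obtain ⟨n, u, rfl⟩ := exists_pow_mul_unit_gaussW hA hw0
  rcases n with _ | n
  · rw [pow_zero, one_mul] at hw
    exact absurd hw (u.isUnit.map (resGW A)).ne_zero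
  · exact dvd_mul_of_dvd_left (dvd_pow_self _ n.succ_ne_zero) _

theorem isUnit_of_resGW_ne_zero {w : gaussW A} (hw : resGW A w ≠ 0) : IsUnit w := by
  obtain ⟨n, u, rfl⟩ := exists_pow_mul_unit_gaussW hA
    (show w ≠ 0 from fun h => hw (by rw [h, map_zero]))
  rcases n with _ | n
  · rw [pow_zero, one_mul]; exact u.isUnit
  · exact absurd (by rw [map_mul, map_pow, resGW_natCast hA, zero_pow n.succ_ne_zero, zero_mul]) hw

omit hA

/-! ### Equivariant functions -/

variable (A) in
/-- Equivariant integral functions with constant residues. -/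
def goodFun {X : Type*} (act : A.inertiaSubgroupIn ℚ → X ≃ X) :
    Subalgebra (gaussW A) (X → GField A) where
  carrier := {f | ∃ hf : ∀ x, f x ∈ locG A, (∀ τ x, f (act τ x) = sigmaG A τ (f x)) ∧
    ∀ x y, resG A ⟨f x, hf x⟩ = resG A ⟨f y, hf y⟩}
  mul_mem' := by
    rintro a b ⟨ha, ha', ha''⟩ ⟨hb, hb', hb''⟩
    refine ⟨fun x => mul_mem (ha x) (hb x), fun τ x => ?_, fun x y => ?_⟩
    · simp only [Pi.mul_apply, map_mul, ha', hb']
    · show resG A (⟨a x, ha x⟩ * ⟨b x, hb x⟩) = resG A (⟨a y, ha y⟩ * ⟨b y, hb y⟩)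
      rw [map_mul, map_mul, ha'' x y, hb'' x y]
  add_mem' := by
    rintro a b ⟨ha, ha', ha''⟩ ⟨hb, hb', hb''⟩
    refine ⟨fun x => add_mem (ha x) (hb x), fun τ x => ?_, fun x y => ?_⟩
    · simp only [Pi.add_apply, map_add, ha', hb']
    · show resG A (⟨a x, ha x⟩ + ⟨b x, hb x⟩) = resG A (⟨a y, ha y⟩ + ⟨b y, hb y⟩)
      rw [map_add, map_add, ha'' x y, hb'' x y]
  algebraMap_mem' w := ⟨fun _ => w.2.1, fun τ _ => (w.2.2 τ).symm, fun _ _ => rfl⟩

variable {X : Type*} {act : A.inertiaSubgroupIn ℚ → X ≃ X} {f : X → GField A}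

theorem mem_locG_of_goodFun (hf : f ∈ goodFun A act) (x : X) : f x ∈ locG A := hf.1 x

theorem equivariant_of_goodFun (hf : f ∈ goodFun A act) (τ : A.inertiaSubgroupIn ℚ) (x : X) :
    f (act τ x) = sigmaG A τ (f x) :=
  hf.2.1 τ x

theorem resG_eq_of_goodFun (hf : f ∈ goodFun A act) (x y : X) :
    resG A ⟨f x, hf.1 x⟩ = resG A ⟨f y, hf.1 y⟩ :=
  hf.2.2 x y

/-- The polynomial with roots the values. -/
theorem exists_annihilating_gaussW [Finite X] (hf : f ∈ goodFun A act) :
    ∃ P : (gaussW A)[X], P.Monic ∧ aeval f P = 0 ∧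
      ((∀ x, resG A ⟨f x, hf.1 x⟩ ≠ 0) → resGW A (P.coeff 0) ≠ 0) := by
  classical
  have := Fintype.ofFinite X
  set PA : (locG A)[X] := ∏ x, (Polynomial.X - C (⟨f x, hf.1 x⟩ : locG A)) with hPA
  have hfix : ∀ i τ, sigmaG A τ (PA.coeff i : GField A) = PA.coeff i := by
    intro i τ
    have h : (PA.map (locG A).subtype).map (sigmaG A τ).toRingHom = PA.map (locG A).subtype := by
      simp only [hPA, Polynomial.map_prod, Polynomial.map_sub, map_X, map_C]
      refine Fintype.prod_equiv (act τ) _ _ fun x => ?_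
      simp [hf.2.1]
    have := congrArg (fun r : (GField A)[X] => r.coeff i) h
    simpa [coeff_map] using this
  have hlift : PA ∈ Polynomial.lifts (wToLoc A) :=
    (lifts_iff_coeff_lifts _).mpr fun i => ⟨⟨_, (PA.coeff i).2, hfix i⟩, rfl⟩
  obtain ⟨P, hP, -, hPm⟩ := lifts_and_degree_eq_and_monic hlift
    (monic_prod_of_monic _ _ fun x _ => monic_X_sub_C _)
  refine ⟨P, hPm, funext fun x => ?_, fun hu => ?_⟩
  · have h1 : aeval f P x = aeval (f x) P :=
      (aeval_algHom_apply (Pi.evalAlgHom (gaussW A) (fun _ : X => GField A) x) f P).symm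
    have h2 : aeval (f x) P = (PA.map (locG A).subtype).eval (f x) := by
      rw [← hP, Polynomial.map_map, eval_map]
      rfl
    rw [h1, h2, hPA, Polynomial.map_prod, eval_prod, Pi.zero_apply]
    exact Finset.prod_eq_zero (Finset.mem_univ x) (by simp)
  · have h0 : wToLoc A (P.coeff 0) = PA.coeff 0 := by rw [← coeff_map, hP]
    show resG A (wToLoc A (P.coeff 0)) ≠ 0
    rw [h0, coeff_zero_eq_eval_zero, hPA, eval_prod, map_prod, Finset.prod_ne_zero_iff]
    intro x _
    simp only [eval_sub, eval_X, eval_C, zero_sub, map_neg, neg_ne_zero]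
    exact hu x

theorem isIntegral_of_goodFun [Finite X] (hf : f ∈ goodFun A act) : IsIntegral (gaussW A) f := by
  obtain ⟨P, hP, h, -⟩ := exists_annihilating_gaussW hf
  exact ⟨P, hP, h⟩

include hA in
/-- Inverses of functions with nonzero residue are polynomials in them. -/
theorem inv_mem_of_goodFun [Finite X] (hf : f ∈ goodFun A act) {x₀ : X}
    (hu : resG A ⟨f x₀, hf.1 x₀⟩ ≠ 0) {S : Subalgebra (gaussW A) (X → GField A)} (hS : f ∈ S) :
    (∀ x, f x ≠ 0) ∧ (fun x => (f x)⁻¹) ∈ S := by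
  obtain ⟨P, -, h, hc⟩ := exists_annihilating_gaussW hf
  have hu' : ∀ x, resG A ⟨f x, hf.1 x⟩ ≠ 0 := fun x => hf.2.2 x x₀ ▸ hu
  have hne : ∀ x, f x ≠ 0 := fun x h0 => hu' x (by
    rw [show (⟨f x, hf.1 x⟩ : locG A) = 0 from Subtype.ext h0, map_zero])
  refine ⟨hne, ?_⟩
  obtain ⟨c, hc⟩ := isUnit_of_resGW_ne_zero hA (hc hu')
  rw [← X_mul_divX_add P, map_add, map_mul, aeval_X, aeval_C, ← hc] at h
  have hmem : aeval f P.divX ∈ S := by
    rw [aeval_eq_sum_range]
    exact sum_mem fun i _ => S.smul_mem (pow_mem hS i) _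
  have e : (fun x => (f x)⁻¹) = (-(↑(c⁻¹) : gaussW A)) • aeval f P.divX := by
    funext x
    have h1 : f x * aeval f P.divX x + ((c : gaussW A) : GField A) = 0 := congrFun h x
    have h2 : ((c : gaussW A) : GField A) * ((↑(c⁻¹) : gaussW A) : GField A) = 1 := by
      rw [← Subring.coe_mul, Units.mul_inv, Subring.coe_one]
    show (f x)⁻¹ = -(((↑(c⁻¹) : gaussW A) : GField A)) * aeval f P.divX x
    refine inv_eq_of_mul_eq_one_right ?_
    linear_combination h2 - ((↑(c⁻¹) : gaussW A) : GField A) * h1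
  rw [e]
  exact S.smul_mem hmem _

/-- The residue map of an algebra of such functions. -/
def resFun (x₀ : X) (S : Subalgebra (gaussW A) (X → GField A)) (hS : S ≤ goodFun A act) :
    S →+* LaurentSeries (Res A) :=
  (resG A).comp
    (((Pi.evalRingHom (fun _ : X => GField A) x₀).comp S.toSubring.subtype).codRestrict (locG A)
      fun f => (hS f.2).1 x₀)

theorem resFun_apply (x₀ : X) (S : Subalgebra (gaussW A) (X → GField A))
    (hS : S ≤ goodFun A act) (g : S) :
    resFun x₀ S hS g = resG A ⟨(g : X → GField A) x₀, (hS g.2).1 x₀⟩ := rfl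

theorem resFun_algebraMap (x₀ : X) (S : Subalgebra (gaussW A) (X → GField A))
    (hS : S ≤ goodFun A act) (w : gaussW A) :
    resFun x₀ S hS (algebraMap (gaussW A) S w) = resGW A w := rfl

include hA in
theorem isUnit_of_resFun_ne_zero [Finite X] (x₀ : X) {S : Subalgebra (gaussW A) (X → GField A)}
    (hS : S ≤ goodFun A act) (g : S) (hg : resFun x₀ S hS g ≠ 0) : IsUnit g := by
  obtain ⟨hne, hmem⟩ := inv_mem_of_goodFun hA (hS g.2) (x₀ := x₀) hg g.2
  exact isUnit_iff_exists_inv.mpr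
    ⟨⟨_, hmem⟩, Subtype.ext (funext fun x => mul_inv_cancel₀ (hne x))⟩

include hA in
theorem finite_adjoin_of_goodFun [Finite X] {ι : Type*} [Finite ι] (g : ι → X → GField A)
    (hg : ∀ i, g i ∈ goodFun A act) :
    Module.Finite (gaussW A) (Algebra.adjoin (gaussW A) (Set.range g)) :=
  Module.Finite.iff_fg.mpr (fg_adjoin_of_finite (Set.finite_range g) (by
    rintro _ ⟨i, rfl⟩
    exact isIntegral_of_goodFun (hg i)))

theorem adjoin_le_goodFun {ι : Type*} (g : ι → X → GField A) (hg : ∀ i, g i ∈ goodFun A act) :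
    Algebra.adjoin (gaussW A) (Set.range g) ≤ goodFun A act :=
  Algebra.adjoin_le (Set.range_subset_iff.mpr hg)

end Fermat.Agent.OrdinaryAtP.Coord

end
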