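import Fermat.Agent.OrdinaryAtP.Coord.Frame

/-!
# The coordinates of the classes

Each class gets the normalised chart of the vectors of `L(n ∞ + D)`. It does not depend on the
divisor, has the residual chart as residue, and is moved by inertia as the class is.
-/

set_option autoImplicit false
set_option synthInstance.maxHeartbeats 400000
set_option maxHeartbeats 1000000
set_option linter.unusedSectionVars false

noncomputable section

namespace Fermat.Agent.OrdinaryAtP.Coord

open ModularCurve AlgebraicCurve Module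
open Fermat.Agent.Semistable Fermat.Agent.RT.Mazur
open Arith (QBar GQ)
open scoped Pointwise

variable {A : ValuationSubring QBar} {q : ℕ} [hq : Fact q.Prime] [CharP (Res A) q]
  {M : ℕ} [NeZero M] [FF.IsFunctionField (Res A) (KM A M)] {h : Setup A M q}
  {G : AddSubgroup (JZero (q * M))}

theorem degree_coe (D : Divisor.degZero (K := QBar) (F := FB (q * M))) :
    Divisor.degree (D : Divisor QBar (FB (q * M))) = 0 :=
  Divisor.mem_degZero.mp D.2

namespace Frame

variable (F : Frame h G)

theorem lifts (y : G) {m : ℕ} (hm : F.n ≤ m) (hm' : m ≤ F.n + F.n + F.n) :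
    InjOver (evF A h.hqM F.m₀) (HD M q (F.D y : Divisor QBar (FB (q * M))) m) ∧
      ∃ γ : Res A, γ ≠ 0 ∧ ∃ r : Fin (finrank (Res A) (Bn A M q h.hqM m)) →
          Fin 2 → LaurentSeries (Res A), r = (h.exists_basis m).choose ∧
        ∃ P : Fin (finrank (Res A) (Bn A M q h.hqM m)) → F.Pl → locG A,
          (∀ i k, resG A (P i k) = gam γ k.1 * evR q F.m₀ (r i) k) ∧
            LinearIndependent (GField A) (rowsAt (locG A).subtype P) ∧
              spanAt (locG A).subtype P =
                EvD h.hqM F.m₀ (F.D y : Divisor QBar (FB (q * M))) m := by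
  obtain ⟨γ, hγ, hLD⟩ := F.twist y
  obtain ⟨hr, hrat, hli, -⟩ := (h.exists_basis m).choose_spec
  obtain ⟨hinj, hP⟩ := exists_lifts h.hqM F.m₀ (D := (F.D y : Divisor QBar (FB (q * M)))) hγ
    ((F.dimHD _ (degree_coe _) m hm).trans (finrank_Bn M q h.hqM h.hA m).2.symm) (gam γ) rfl
    (h.exists_basis m).choose
    (fun i => by rw [hLD m hm]; exact ⟨_, hr i, rfl⟩)
    (moore q _ hrat hli (F.finrank_Bn_le hm'))
  exact ⟨hinj, γ, hγ, _, rfl, hP⟩

theorem exists_point (y : G) : ∃ P : Fin F.d → F.Pl → locG A, GoodRows F.I F.E P ∧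
    normC F.rt (rowsAt (resG A) P) = F.Z0 ∧
      spanAt (locG A).subtype P = EvD h.hqM F.m₀ (F.D y : Divisor QBar (FB (q * M))) F.n ∧
        LinearIndependent (GField A) (rowsAt (locG A).subtype P) := by
  obtain ⟨-, γ, hγ, r, hr, P, hres, hli, hspan⟩ := F.lifts y le_rfl (by omega)
  subst hr
  have hrows : rowsAt (resG A) P = fun i => (fun k : F.Pl => gam γ k.1) * F.P0 i :=
    funext fun i => funext fun k => hres i k
  have ht : ∀ k : F.Pl, gam γ k.1 ≠ 0 := fun k => gam_ne_zero hγ k.1
  obtain ⟨hgood, hZ⟩ := normC_eq_of_span (rt := F.rt) (P' := rowsAt (resG A) P) F.goodRows0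
    (by rw [hrows]; exact F.P0_li.map' (LinearMap.mulLeft _ fun k : F.Pl => gam γ k.1)
          (LinearMap.ker_eq_bot.mpr (mulLeft_pi_injective ht)))
    ht (by rw [hrows])
  exact ⟨P, goodRows_of_residue (fun _ => isUnit_of_resG_ne_zero A) hgood, hZ, hspan, hli⟩

/-- Integral rows at a class. -/
def pt (y : G) : Fin F.d → F.Pl → locG A := (F.exists_point y).choose

theorem pt_spec (y : G) : GoodRows F.I F.E (F.pt y) ∧
    normC F.rt (rowsAt (resG A) (F.pt y)) = F.Z0 ∧
      spanAt (locG A).subtype (F.pt y) =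
          EvD h.hqM F.m₀ (F.D y : Divisor QBar (FB (q * M))) F.n ∧
        LinearIndependent (GField A) (rowsAt (locG A).subtype (F.pt y)) :=
  (F.exists_point y).choose_spec

/-- The coordinates as integers. -/
def deltaLoc (y : G) : Fin F.d → F.Pl → locG A := normC F.rt (F.pt y)

/-- **The coordinates of a class.** -/
def delta (y : G) : Fin F.d → F.Pl → GField A :=
  fun i k => (F.deltaLoc y i k : GField A)

theorem delta_mem (y : G) (i : Fin F.d) (k : F.Pl) : F.delta y i k ∈ locG A :=
  (F.deltaLoc y i k).2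

theorem resG_delta (y : G) (i : Fin F.d) (k : F.Pl) :
    resG A ⟨F.delta y i k, F.delta_mem y i k⟩ = F.Z0 i k := by
  obtain ⟨hgood, hZ, -⟩ := F.pt_spec y
  show resG A (F.deltaLoc y i k) = _
  unfold deltaLoc
  rw [← hZ]
  exact (congrFun₂ (map_normC (resG A) F.rt hgood) i k).symm

theorem delta_eq (y : G) : F.delta y = normC F.rt (rowsAt (locG A).subtype (F.pt y)) :=
  (map_normC (locG A).subtype F.rt (F.pt_spec y).1).symm

theorem goodRows_pt (y : G) : GoodRows F.I F.E (rowsAt (locG A).subtype (F.pt y)) :=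
  (F.pt_spec y).1.map (locG A).subtype

theorem span_pt (y : G) : Submodule.span (GField A) (Set.range (rowsAt (locG A).subtype (F.pt y))) =
    EvD h.hqM F.m₀ (F.D y : Divisor QBar (FB (q * M))) F.n :=
  (F.pt_spec y).2.2.1

/-- Independent rows spanning a translate have the coordinates of the class. -/
theorem delta_unique (y : G) {P' : Fin F.d → F.Pl → GField A}
    (hli : LinearIndependent (GField A) P') {t : F.Pl → GField A} (ht : ∀ k, t k ≠ 0)
    (hspan : Submodule.span (GField A) (Set.range P') =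
      (EvD h.hqM F.m₀ (F.D y : Divisor QBar (FB (q * M))) F.n).map
        (LinearMap.mulLeft (GField A) t)) :
    GoodRows F.I F.E P' ∧ normC F.rt P' = F.delta y := by
  rw [delta_eq]
  refine normC_eq_of_span (F.goodRows_pt y) hli ht ?_
  rw [hspan, ← span_pt, Submodule.map_span, ← Set.range_comp]
  rfl

theorem linearIndependent_delta (y : G) : LinearIndependent (GField A) (F.delta y) := by
  rw [delta_eq]
  exact linearIndependent_normC (F.goodRows_pt y)

theorem exists_span_delta (y : G) : ∃ t : F.Pl → GField A, (∀ k, t k ≠ 0) ∧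
    Submodule.span (GField A) (Set.range (F.delta y)) =
      (EvD h.hqM F.m₀ (F.D y : Divisor QBar (FB (q * M))) F.n).map
        (LinearMap.mulLeft (GField A) t) := by
  refine ⟨normTorus F.rt (rowsAt (locG A).subtype (F.pt y)),
    normTorus_ne_zero (F.goodRows_pt y), ?_⟩
  rw [delta_eq, span_normC (F.goodRows_pt y), span_pt]

/-- Divisors in the class give translates. -/
theorem exists_translate (y : G) (E : Divisor.degZero (K := QBar) (F := FB (q * M)))
    (hE : Pic0.mk E = (y : JZero (q * M))) (m : ℕ) : ∃ t : F.Pl → GField A, (∀ k, t k ≠ 0) ∧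
      EvD h.hqM F.m₀ (E : Divisor QBar (FB (q * M))) m =
        (EvD h.hqM F.m₀ (F.D y : Divisor QBar (FB (q * M))) m).map
          (LinearMap.mulLeft (GField A) t) := by
  obtain ⟨f, hf, hfD⟩ : Divisor.IsPrincipal
      ((E : Divisor QBar (FB (q * M))) - (F.D y : Divisor QBar (FB (q * M)))) := by
    have h1 := (QuotientAddGroup.eq_iff_sub_mem).mp (hE.trans (F.cls y).symm)
    rwa [AddSubgroup.mem_addSubgroupOf, AddSubgroupClass.coe_sub] at h1
  refine ⟨evF A h.hqM F.m₀ f⁻¹, evF_ne_zero h.hqM F.m₀ (inv_ne_zero hf),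
    EvD_translate h.hqM F.m₀ hf (fun v => ?_) m⟩
  rw [← hfD, Finsupp.sub_apply]
  ring

theorem finrank_EvD_class (y : G) (E : Divisor.degZero (K := QBar) (F := FB (q * M)))
    (hE : Pic0.mk E = (y : JZero (q * M))) :
    finrank (GField A) (EvD (A := A) h.hqM F.m₀ (E : Divisor QBar (FB (q * M))) F.n) = F.d := by
  obtain ⟨t, ht, e⟩ := F.exists_translate y E hE F.n
  rw [e, finrank_map_mul _ ht, ← span_pt,
    finrank_span_eq_card (F.pt_spec y).2.2.2, Fintype.card_fin]

theorem finiteDimensional_EvD (D : Divisor QBar (FB (q * M))) (m : ℕ) :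
    FiniteDimensional (GField A) (EvD (A := A) h.hqM F.m₀ D m) :=
  inferInstance

/-- **Inertia moves the coordinates as the classes.** -/
theorem delta_smul (τ : A.inertiaSubgroupIn ℚ) (y : G) (hy : (τ : GQ) • (y : JZero (q * M)) ∈ G)
    (i : Fin F.d) (k : F.Pl) :
    F.delta ⟨_, hy⟩ i k = sigmaG A τ (F.delta y i k) := by
  set g : GField A →+* GField A := (sigmaG A τ).toRingHom
  set P := rowsAt (locG A).subtype (F.pt y) with hP
  have hgood := (F.goodRows_pt y).map g
  have hli : LinearIndependent (GField A) (rowsAt g P) := linearIndependent_of_minor hgood.1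
  set E := SemilinearAut.degZeroSMulHom
    (arithmeticGalois (modularFunctionFieldFull (q * M)) (τ : GQ)) (F.D y) with hEdef
  have hE : Pic0.mk E = (τ : GQ) • (y : JZero (q * M)) := by rw [← F.cls y]; rfl
  have hEcoe : (E : Divisor QBar (FB (q * M))) =
      galD (τ : GQ) (F.D y : Divisor QBar (FB (q * M))) := SemilinearAut.coe_degZeroSMulHom _ _
  obtain ⟨t, ht, htr⟩ := F.exists_translate ⟨_, hy⟩ E hE F.n
  have hspan : Submodule.span (GField A) (Set.range (rowsAt g P)) =
      EvD h.hqM F.m₀ (E : Divisor QBar (FB (q * M))) F.n := by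
    have := F.finiteDimensional_EvD (E : Divisor QBar (FB (q * M))) F.n
    refine Submodule.eq_of_le_of_finrank_le (Submodule.span_le.mpr ?_) ?_
    · rintro _ ⟨j, rfl⟩
      rw [hEcoe]
      refine sigmaG_mem_EvD h.hqM F.m₀ τ (x := P j) ?_
      rw [← span_pt]
      exact Submodule.subset_span ⟨j, rfl⟩
    · rw [finrank_span_eq_card hli, Fintype.card_fin, F.finrank_EvD_class ⟨_, hy⟩ E hE]
  obtain ⟨-, hd⟩ := F.delta_unique ⟨_, hy⟩ hli ht (hspan.trans htr)
  rw [← hd, delta_eq]
  exact congrFun₂ (map_normC g F.rt (F.goodRows_pt y)) i k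

end Frame

end Fermat.Agent.OrdinaryAtP.Coord

end
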