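import Fermat.Agent.OrdinaryAtP.Coord.Points

/-!
# The algebras of coordinates on a group and on its square

Products of the residual coordinates span the residual space of twice the degree.
-/

set_option autoImplicit false
set_option synthInstance.maxHeartbeats 400000
set_option maxHeartbeats 1000000
set_option linter.unusedSectionVars false

noncomputable section

namespace Fermat.Agent.OrdinaryAtP.Coord

open ModularCurve AlgebraicCurve Module
open Fermat.Agent.Semistable Fermat.Agent.RT.Mazur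
open Arith (QBar GQ)
open scoped Pointwise

theorem evSpan_span {k Ω V κ : Type*} [Field k] [Field Ω] [Algebra k Ω] [AddCommGroup V]
    [Module k V] (ev : V →ₗ[k] (κ → Ω)) (S : Set V) :
    evSpan ev (Submodule.span k S) = Submodule.span Ω (ev '' S) := by
  refine le_antisymm (Submodule.span_le.mpr ?_)
    (Submodule.span_mono (Set.image_mono Submodule.subset_span))
  rintro _ ⟨x, hx, rfl⟩
  have h := Submodule.mem_map_of_mem (f := ev) hx
  rw [Submodule.map_span] at h
  exact Submodule.span_le_restrictScalars k Ω _ h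

variable {A : ValuationSubring QBar} {q : ℕ} [hq : Fact q.Prime] [CharP (Res A) q]
  {M : ℕ} [NeZero M] [FF.IsFunctionField (Res A) (KM A M)] {h : Setup A M q}

/-- The function `j ^ k` and its reduction. -/
theorem exists_jPow_fun (h : Setup A M q) (k : ℕ) : ∃ x : loc2 A (iota2 M q h.hqM),
    (x : FB (q * M)) = upF M q (jM M) ^ k ∧ red2 A (iota2 M q h.hqM) x = jPow A q k := by
  refine ⟨upParam M h.hqM ⟨jM M, jM_mem M⟩ ^ k, rfl, ?_⟩
  rw [map_pow, show red2 A (iota2 M q h.hqM) (upParam M h.hqM ⟨jM M, jM_mem M⟩) =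
      ![jqModC (Res A), qExpand (Res A) q (jqModC (Res A))] from
    (red2_upF M q h.hqM ⟨jM M, jM_mem M⟩).trans (by rw [red1_jM])]
  funext s
  fin_cases s <;> simp [jPow]

theorem upF_jM_pow_mem_HD (k : ℕ) : upF M q (jM M) ^ k ∈ HD M q 0 k := by
  rw [HD_zero]
  induction k with
  | zero => rw [pow_zero]; exact one_mem_polesSpace _ _
  | succ k ih =>
    rw [pow_succ]
    refine mul_mem_polesSpace ih ?_
    rw [RedTorsion.mem_polesSpace]
    intro v
    refine FF.mem_ordGe_of_le v ?_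
    rw [FF.poles_apply, Nat.cast_one, one_mul]
    omega

variable {G : AddSubgroup (JZero (q * M))}

namespace Frame

variable (F : Frame h G)

/-- The products of the residual coordinates span the residual space of degree `2 n`, twisted. -/
theorem span_products :
    Submodule.span (LaurentSeries (Res A))
        (Set.range fun ij : Fin F.d × Fin F.d => F.Z0 ij.1 * F.Z0 ij.2) =
      (evSpan (evR q F.m₀) (Bn A M q h.hqM (F.n + F.n))).map
        (LinearMap.mulLeft (LaurentSeries (Res A)) (F.T0 * F.T0)) := by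
  have hset : (Set.range fun ij : Fin F.d × Fin F.d => F.Z0 ij.1 * F.Z0 ij.2) =
      Set.range F.Z0 * Set.range F.Z0 := by
    ext x
    simp [Set.mem_mul]
  rw [hset, ← Submodule.span_mul_span, F.span_Z0]
  refine le_antisymm (Submodule.mul_le.mpr ?_) ?_
  · rintro _ ⟨a, ha, rfl⟩ _ ⟨b, hb, rfl⟩
    refine ⟨a * b, ?_, ?_⟩
    · have h1 := Submodule.mul_mem_mul ha hb
      rw [evSpan, Submodule.span_mul_span] at h1
      refine (Submodule.span_le.mpr ?_) h1
      rintro _ ⟨_, ⟨x, hx, rfl⟩, _, ⟨y, hy, rfl⟩, rfl⟩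
      show evR q F.m₀ x * evR q F.m₀ y ∈ _
      rw [← evR_mul]
      exact mem_evSpan _ (h.mul_mem_Bn hx hy)
    · simp only [LinearMap.mulLeft_apply]
      ring
  · refine (Submodule.map_mono ((evSpan_mono _ F.mulB).trans (evSpan_span _ _).le)).trans ?_
    rw [Submodule.map_span, Submodule.span_le]
    rintro _ ⟨_, ⟨_, ⟨r, hr, s, hs, rfl⟩, rfl⟩, rfl⟩
    rw [SetLike.mem_coe, LinearMap.mulLeft_apply, evR_mul,
      mul_mul_mul_comm F.T0 F.T0 (evR q F.m₀ r) (evR q F.m₀ s)]
    exact Submodule.mul_mem_mul ⟨_, mem_evSpan _ hr, rfl⟩ ⟨_, mem_evSpan _ hs, rfl⟩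

theorem finrank_evSpan_two : finrank (LaurentSeries (Res A))
    (evSpan (evR q F.m₀) (Bn A M q h.hqM (F.n + F.n))) =
      finrank (Res A) (Bn A M q h.hqM (F.n + F.n)) :=
  have := (finrank_Bn M q h.hqM h.hA (F.n + F.n)).1
  finrank_evSpan (F.injOver_res (by omega)) le_rfl

/-- The residual colon space. -/
theorem colon_evSpan_two :
    colonSp (evSpan (evR q F.m₀) (Bn A M q h.hqM (F.n + F.n))) (evR q F.m₀ (jPow A q F.n)) =
      evSpan (evR q F.m₀) (Bn A M q h.hqM F.n) := by
  have := (finrank_Bn M q h.hqM h.hA (F.n + F.n + F.n)).1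
  refine le_antisymm (colon_evSpan_le (F.injOver_res le_rfl)
    (mulPair (jPow A q F.n)) _ (evR_jPow_ne_zero F.n) (fun x => evR_mul _ x)
    (h.Bn_mono (Nat.le_add_right _ _))
    (by
      rintro _ ⟨f, hf, rfl⟩
      rw [add_comm (F.n + F.n) F.n]
      exact h.mul_mem_Bn (jPow_mem_Bn h F.n) hf)
    F.colonB) ?_
  refine le_inf (evSpan_mono _ (h.Bn_mono (Nat.le_add_right _ _))) ?_
  refine Submodule.span_le.mpr ?_
  rintro _ ⟨x, hx, rfl⟩
  rw [SetLike.mem_coe, Submodule.mem_comap, LinearMap.mulLeft_apply, ← evR_mul]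
  exact mem_evSpan _ (h.mul_mem_Bn (jPow_mem_Bn h F.n) hx)

variable (hstab : ∀ τ ∈ A.inertiaSubgroupIn ℚ, ∀ y ∈ G, τ • y ∈ G)

/-- Inertia on the group. -/
def act (τ : A.inertiaSubgroupIn ℚ) : G ≃ G where
  toFun y := ⟨(τ : GQ) • (y : JZero (q * M)), hstab τ τ.2 y y.2⟩
  invFun y := ⟨(τ : GQ)⁻¹ • (y : JZero (q * M)), hstab _ (inv_mem τ.2) y y.2⟩
  left_inv _ := Subtype.ext (inv_smul_smul _ _)
  right_inv _ := Subtype.ext (smul_inv_smul _ _)

/-- Inertia on the square. -/
def act2 (τ : A.inertiaSubgroupIn ℚ) : G × G ≃ G × G := (act hstab τ).prodCongr (act hstab τ)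

/-- The coordinate functions. -/
def gen (ik : Fin F.d × F.Pl) : G → GField A := fun y => F.delta y ik.1 ik.2

theorem gen_mem_good (ik : Fin F.d × F.Pl) : F.gen ik ∈ goodFun A (act hstab) :=
  ⟨fun y => F.delta_mem y _ _,
    fun τ y => F.delta_smul τ y (hstab τ τ.2 y y.2) _ _,
    fun y y' => (F.resG_delta y _ _).trans (F.resG_delta y' _ _).symm⟩

/-- The coordinates of either factor. -/
def gen2 : (Fin F.d × F.Pl) ⊕ (Fin F.d × F.Pl) → G × G → GField A :=
  Sum.elim (fun ik z => F.gen ik z.1) fun ik z => F.gen ik z.2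

theorem gen2_mem_good (x : (Fin F.d × F.Pl) ⊕ (Fin F.d × F.Pl)) :
    F.gen2 x ∈ goodFun A (act2 hstab) := by
  rcases x with ik | ik
  · exact ⟨fun z => F.delta_mem z.1 _ _, fun τ z => (F.gen_mem_good hstab ik).2.1 τ z.1,
      fun z z' => (F.resG_delta z.1 _ _).trans (F.resG_delta z'.1 _ _).symm⟩
  · exact ⟨fun z => F.delta_mem z.2 _ _, fun τ z => (F.gen_mem_good hstab ik).2.1 τ z.2,
      fun z z' => (F.resG_delta z.2 _ _).trans (F.resG_delta z'.2 _ _).symm⟩

/-- The algebra of the group. -/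
abbrev alg : Subalgebra (gaussW A) (G → GField A) :=
  Algebra.adjoin (gaussW A) (Set.range F.gen)

/-- The algebra of the square. -/
abbrev alg2 : Subalgebra (gaussW A) (G × G → GField A) :=
  Algebra.adjoin (gaussW A) (Set.range F.gen2)

/-- The residues of the algebra of the square. -/
def res2 : F.alg2 →+* LaurentSeries (Res A) :=
  resFun ((0, 0) : G × G) F.alg2 (adjoin_le_goodFun _ (F.gen2_mem_good hstab))

/-- The values of the algebra of the square. -/
def val2 (z : G × G) : F.alg2 →+* GField A :=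
  (Pi.evalRingHom (fun _ : G × G => GField A) z).comp F.alg2.toSubring.subtype

theorem val2_apply (z : G × G) (f : F.alg2) : F.val2 z f = (f : G × G → GField A) z := rfl

theorem val2_algebraMap (z : G × G) (w : gaussW A) :
    F.val2 z (algebraMap (gaussW A) F.alg2 w) = (w : GField A) := rfl

theorem res2_algebraMap (w : gaussW A) :
    F.res2 hstab (algebraMap (gaussW A) F.alg2 w) = resGW A w :=
  resFun_algebraMap _ _ _ w

theorem res2_gen_inl (ik : Fin F.d × F.Pl) (hm : F.gen2 (Sum.inl ik) ∈ F.alg2) :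
    F.res2 hstab ⟨F.gen2 (Sum.inl ik), hm⟩ = F.Z0 ik.1 ik.2 := by
  rw [res2, resFun_apply]
  exact F.resG_delta 0 ik.1 ik.2

theorem res2_gen_inr (ik : Fin F.d × F.Pl) (hm : F.gen2 (Sum.inr ik) ∈ F.alg2) :
    F.res2 hstab ⟨F.gen2 (Sum.inr ik), hm⟩ = F.Z0 ik.1 ik.2 := by
  rw [res2, resFun_apply]
  exact F.resG_delta 0 ik.1 ik.2

end Frame

end Fermat.Agent.OrdinaryAtP.Coord

end
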