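import Fermat.Agent.OrdinaryAtP.Coord.Moore
import Fermat.Agent.RT.Mazur.Injective

/-!
# The reductions of `L(n ∞)` at level `q M`

They are stable under Frobenius on coefficients; for large `n` those of degree `2 n` are spanned by
products, and multiplication by `j ^ n` pins them down.
-/

set_option autoImplicit false
set_option synthInstance.maxHeartbeats 400000
set_option maxHeartbeats 1000000
set_option linter.unusedSectionVars false

noncomputable section

namespace Fermat.Agent.OrdinaryAtP.Coord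

open ModularCurve AlgebraicCurve
open Fermat.Agent.Semistable Fermat.Agent.RT.Mazur
open Arith (QBar)

variable {A : ValuationSubring QBar} {q : ℕ} [hq : Fact q.Prime] [CharP (Res A) q]
  {M : ℕ} [NeZero M] [FF.IsFunctionField (Res A) (KM A M)] (h : Setup A M q)

theorem galF_upF_jM (σ : Arith.GQ) :
    galF (q * M) σ (upF M q (jM M)) = upF M q (jM M) := by
  rw [galF_upF, galF_jM]

include h

/-- Frobenius on coefficients preserves the reductions. -/
theorem coeffMap_frobenius_mem_Bn {n : ℕ} {r : Fin 2 → LaurentSeries (Res A)}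
    (hr : r ∈ Bn A M q h.hqM n) :
    (fun s => coeffMap (frobenius (Res A) q) (r s)) ∈ Bn A M q h.hqM n := by
  obtain ⟨σ, hσ⟩ := Arith.exists_isFrobeniusAt h.hA hq.out
  obtain ⟨x, hx, rfl⟩ := mem_redSub.mp hr
  obtain ⟨hm, e⟩ := (resLift_of_frobenius hσ).galF_mem_loc2 M q h.hqM x
  exact mem_redSub.mpr ⟨⟨_, hm⟩, galF_mem_poles (q * M) (galF_upF_jM σ) hx, funext e⟩

/-- Powers of `j` are reductions. -/
theorem jPow_mem_Bn (k : ℕ) : jPow A q k ∈ Bn A M q h.hqM k := by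
  induction k with
  | zero =>
    rw [show jPow A q 0 = 1 from funext fun s => by fin_cases s <;> simp [jPow]]
    exact h.one_mem_Bn 0
  | succ k ih =>
    rw [jPow_add]
    refine h.mul_mem_Bn ih (mem_redSub.mpr ⟨upParam M h.hqM ⟨jM M, jM_mem M⟩, ?_, ?_⟩)
    · rw [RedTorsion.mem_polesSpace]
      intro v
      refine FF.mem_ordGe_of_le v ?_
      show _ ≤ v.ord (upF M q (jM M))
      rw [FF.poles_apply, Nat.cast_one, one_mul]
      omega
    · refine (red2_upF M q h.hqM ⟨jM M, jM_mem M⟩).trans ?_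
      rw [red1_jM]
      funext s
      fin_cases s <;> simp [jPow]

/-- The reductions one degree higher come from multiplication by `j`. -/
theorem exists_Bn_succ : ∃ n₀ : ℕ, ∀ d, n₀ ≤ d → ∀ r ∈ Bn A M q h.hqM (d + 1),
    ∃ β ∈ Bn A M q h.hqM d, r - jPow A q 1 * β ∈ Bn A M q h.hqM d := by
  obtain ⟨n₁, hn₁⟩ := h.exists_layer
  obtain ⟨n₂, hn₂⟩ := h.exists_top
  obtain ⟨n₃, hn₃⟩ := h.exists_descend
  refine ⟨n₁ + n₂ + n₃ + 1, fun d hd r hr => ?_⟩
  obtain ⟨c, rfl⟩ : ∃ c, d = c + 1 := ⟨d - 1, by omega⟩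
  have hrP : r ∈ Pk A M q (c + 1 + 1) := Bn_le_Pk M q h.hqM h.hA h.hM _ hr
  have key : ∀ s, ∃ φ ∈ HkS A M (sideDeg q s * (c + 1)),
      r s - jPow A q 1 s * φ ∈ HkS A M (sideDeg q s * (c + 1)) := by
    intro s
    have hs : 1 ≤ sideDeg q s := by
      fin_cases s
      · simp [sideDeg]
      · simpa [sideDeg] using hq.out.one_lt.le
    rw [Pk, Submodule.mem_pi] at hrP
    obtain ⟨h0, h0'⟩ := (mem_HkS A M).mp (hrP s trivial)
    obtain ⟨φ, hφ, hφ'⟩ := hn₁ (sideDeg q s) (sideDeg q s * (c + 1)) (sideDeg q s * c)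
      (sideDeg q s * (c + 1 + 1)) (sideDeg q s * (c + 1)) (jK A M ^ sideDeg q s)
      (le_trans (by omega) (Nat.le_mul_of_pos_left c hs)) (Nat.mul_le_mul_left _ (by omega))
      (by ring) (by ring) (pow_ne_zero _ fun h => jK_transcendental A M (h ▸ isAlgebraic_zero))
      (fun v _ => FF.ord_pow v _ _)
      (fun φ hφ => by
        have := mul_mem_polesSpace (jK_pow_mem_Hk (A := A) (M := M) (sideDeg q s)) hφ
        rwa [show sideDeg q s + sideDeg q s * (c + 1) = sideDeg q s * (c + 1 + 1) by ring] at this)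
      _ h0'
    refine ⟨(φ : LaurentSeries (Res A)), coe_mem_HkS.mpr hφ, ?_⟩
    have e : r s - jPow A q 1 s * (φ : LaurentSeries (Res A)) =
        ((⟨r s, h0⟩ - jK A M ^ sideDeg q s * φ : KM A M) : LaurentSeries (Res A)) := by
      rw [AddSubgroupClass.coe_sub, IntermediateField.coe_mul, jPow_apply (M := M), mul_one]
    rw [e]
    exact coe_mem_HkS.mpr hφ'
  choose φ hφ hφ' using key
  have hφP : φ ∈ Pk A M q (c + 1) := by
    rw [Pk, Submodule.mem_pi]
    exact fun s _ => hφ s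
  have hrest : r - jPow A q 1 * φ ∈ Pk A M q (c + 1) := by
    rw [Pk, Submodule.mem_pi]
    exact fun s _ => hφ' s
  obtain ⟨β, hβ, φ', hφ'', hsum⟩ := Submodule.mem_sup.mp (hn₂ c (by omega) hφP)
  refine ⟨β, hβ, hn₃ (c + 1) (by omega) (c + 1 + 1) (by omega) _
    (sub_mem hr ?_) ?_⟩
  · rw [add_comm (c + 1) 1]
    exact h.mul_mem_Bn (jPow_mem_Bn h 1) hβ
  · rw [show r - jPow A q 1 * β = (r - jPow A q 1 * φ) + jPow A q 1 * φ' by
      rw [← hsum]; ring]
    refine add_mem hrest ?_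
    rw [add_comm c 1]
    exact mul_mem_Pk (jPow_mem_Pk 1) hφ''

/-- The products of two reductions of degree `n`. -/
theorem exists_Bn_mul : ∃ n₀ : ℕ, ∀ n, n₀ ≤ n → Bn A M q h.hqM (n + n) ≤
    Submodule.span (Res A)
      {x | ∃ r ∈ Bn A M q h.hqM n, ∃ s ∈ Bn A M q h.hqM n, x = r * s} := by
  obtain ⟨n₁, hn₁⟩ := exists_Bn_succ h
  refine ⟨n₁, fun n hn => ?_⟩
  let T : ℕ → Submodule (Res A) (Fin 2 → LaurentSeries (Res A)) := fun i =>
    Submodule.span (Res A) {x | ∃ l ≤ i, ∃ s ∈ Bn A M q h.hqM n, x = jPow A q l * s}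
  have key : ∀ i, Bn A M q h.hqM (n + i) ≤ T i := by
    intro i
    induction i with
    | zero =>
      intro r hr
      refine Submodule.subset_span ⟨0, le_rfl, r, hr, ?_⟩
      rw [show jPow A q 0 = 1 from funext fun s => by fin_cases s <;> simp [jPow], one_mul]
    | succ i ih =>
      intro r hr
      obtain ⟨β, hβ, hrest⟩ := hn₁ (n + i) (by omega) r hr
      have hle : T i ≤ (T (i + 1)).comap (mulPair (jPow A q 1)) := by
        rw [Submodule.span_le]
        rintro _ ⟨l, hl, s, hs, rfl⟩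
        exact Submodule.subset_span ⟨l + 1, by omega, s, hs, by
          show jPow A q 1 * (jPow A q l * s) = _
          rw [← mul_assoc, ← jPow_add, add_comm 1 l]⟩
      have hmono : T i ≤ T (i + 1) := Submodule.span_mono
        fun x ⟨l, hl, hx⟩ => ⟨l, by omega, hx⟩
      have h1 : jPow A q 1 * β ∈ T (i + 1) := hle (ih hβ)
      simpa using add_mem (hmono (ih hrest)) h1
  refine (key n).trans (Submodule.span_le.mpr ?_)
  rintro _ ⟨l, hl, s, hs, rfl⟩
  exact Submodule.subset_span ⟨_, h.Bn_mono hl (jPow_mem_Bn h l), s, hs, rfl⟩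

/-- `{f | f, j ^ n f}` in degree `2 n` is degree `n`. -/
theorem exists_colon_Bn : ∃ n₀ : ℕ, ∀ n, n₀ ≤ n → ∀ f ∈ Bn A M q h.hqM (n + n),
    jPow A q n * f ∈ Bn A M q h.hqM (n + n) → f ∈ Bn A M q h.hqM n := by
  obtain ⟨n₁, hn₁⟩ := h.exists_descend
  refine ⟨n₁, fun n hn f hf hjf => hn₁ n hn (n + n) (by omega) f hf ?_⟩
  exact cancel_jPow (Bn_le_Pk M q h.hqM h.hA h.hM _ hf) (Bn_le_Pk M q h.hqM h.hA h.hM _ hjf) le_rfl

/-- `{f | f, j ^ n f}` in degree `n` are the constants. -/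
theorem exists_colon_const (h4 : 4 ∣ M) : ∃ n₀ : ℕ, ∀ n, n₀ ≤ n → ∀ f ∈ Bn A M q h.hqM n,
    jPow A q n * f ∈ Bn A M q h.hqM n → ∃ β : Res A, f = β • 1 := by
  obtain ⟨n₁, hn₁⟩ := exists_smul_one_of_mem h h4
  refine ⟨n₁, fun n hn f hf hjf => hn₁ n hn f hf ?_⟩
  exact cancel_jPow (Bn_le_Pk M q h.hqM h.hA h.hM _ hf) (Bn_le_Pk M q h.hqM h.hA h.hM _ hjf)
    (by omega)

end Fermat.Agent.OrdinaryAtP.Coord

end
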