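import Mathlib.LinearAlgebra.Dimension.Constructions
import Mathlib.LinearAlgebra.Dimension.OrzechProperty
import Mathlib.LinearAlgebra.Dimension.RankNullity
import Mathlib.LinearAlgebra.FiniteDimensional.Lemmas
import Mathlib.LinearAlgebra.Basis.VectorSpace
import Mathlib.LinearAlgebra.Dual.Lemmas
import Mathlib.LinearAlgebra.Matrix.NonsingularInverse
import Mathlib.LinearAlgebra.Matrix.ToLin

/-!
# Images of vector spaces under linear maps to vectors over an extension field

If a linear map to vectors over an extension keeps linear independence on a space `S`, the spans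
of the images of subspaces of `S` have the same dimensions and intersect as the subspaces do.
Also: independent vectors have invertible square minors.
-/

set_option autoImplicit false

noncomputable section

namespace Fermat.Agent.OrdinaryAtP.Coord

open Module

section Minor

variable {K : Type*} [Field K] {κ : Type*}

/-- Independent vectors have an invertible square minor. -/
theorem exists_minor {m : ℕ} {v : Fin m → κ → K} (hv : LinearIndependent K v) :
    ∃ I : Fin m → κ, IsUnit (Matrix.of fun i j => v i (I j) : Matrix (Fin m) (Fin m) K) := by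
  classical
  let col : κ → (Fin m → K) := fun k i => v i k
  have hspan : Submodule.span K (Set.range col) = ⊤ := by
    by_contra hne
    obtain ⟨φ, hφ, hle⟩ := Submodule.exists_le_ker_of_lt_top _ (lt_top_iff_ne_top.mpr hne)
    have e : ∀ w : Fin m → K, φ w = ∑ i, w i * φ (Pi.single i 1) := fun w => by
      conv_lhs => rw [← Finset.univ_sum_single w, map_sum]
      refine Finset.sum_congr rfl fun i _ => ?_
      rw [show (Pi.single i (w i) : Fin m → K) = w i • Pi.single i 1 by
        rw [← Pi.single_smul, smul_eq_mul, mul_one], map_smul, smul_eq_mul]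
    have h0 := Fintype.linearIndependent_iff.mp hv (fun i => φ (Pi.single i 1)) (funext fun k => by
      rw [Finset.sum_apply, Pi.zero_apply]
      have h1 : φ (col k) = 0 := hle (Submodule.subset_span ⟨k, rfl⟩)
      rw [e] at h1
      exact (Finset.sum_congr rfl fun i _ => mul_comm _ _).trans h1)
    refine hφ (LinearMap.ext fun w => ?_)
    rw [e, LinearMap.zero_apply]
    exact Finset.sum_eq_zero fun i _ => by rw [h0 i, mul_zero]
  obtain ⟨t, ht, htspan, htli⟩ := exists_linearIndependent K (Set.range col)
  rw [hspan] at htspan
  let Bt : Basis t K (Fin m → K) := Basis.mk htli (by rw [Subtype.range_coe, htspan])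
  let _ := FiniteDimensional.fintypeBasisIndex Bt
  let et : Fin m ≃ t := (Fintype.equivFinOfCardEq (by
    rw [← Module.finrank_eq_card_basis Bt, Module.finrank_fintype_fun_eq_card,
      Fintype.card_fin])).symm
  choose I hI using fun a : Fin m => ht (et a).2
  refine ⟨I, Matrix.linearIndependent_cols_iff_isUnit.mp ?_⟩
  have e : (fun a => fun i => v i (I a)) = fun a => ((et a : t) : Fin m → K) := funext fun a => hI a
  show LinearIndependent K (fun a => fun i => v i (I a))
  rw [e]
  exact htli.comp et et.injective

/-- A subfamily which is independent and spans the same space. -/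
theorem exists_subfamily {ι V : Type*} [Finite ι] [AddCommGroup V] [Module K V] (P : ι → V)
    {d : ℕ} (hd : finrank K (Submodule.span K (Set.range P)) = d) :
    ∃ S : Fin d → ι, LinearIndependent K (P ∘ S) ∧
      Submodule.span K (Set.range (P ∘ S)) = Submodule.span K (Set.range P) := by
  classical
  obtain ⟨b, hb, hspan, hli⟩ := exists_linearIndependent K (Set.range P)
  have : Finite b := (Set.finite_range P).subset hb
  let _ := Fintype.ofFinite b
  have hcard : Fintype.card b = d := by
    rw [← hd, ← hspan, finrank_span_set_eq_card (R := K) (s := b) hli, Set.toFinset_card]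
  let e : Fin d ≃ b := (Fintype.equivFinOfCardEq hcard).symm
  choose S hS using fun a => hb (e a).2
  have hcomp : P ∘ S = Subtype.val ∘ e := funext hS
  refine ⟨S, hcomp ▸ hli.comp e e.injective, ?_⟩
  rw [hcomp, Set.range_comp, e.range_eq_univ, Set.image_univ, Subtype.range_coe, hspan]

end Minor

section SpanOver

variable {k Ω : Type*} [Field k] [Field Ω] [Algebra k Ω] {V : Type*} [AddCommGroup V] [Module k V]
  {κ : Type*} (ev : V →ₗ[k] (κ → Ω))

/-- Independent families in `S` have independent images. -/
def InjOver (S : Submodule k V) : Prop :=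
  ∀ ⦃n : ℕ⦄ (b : Fin n → V), (∀ i, b i ∈ S) → LinearIndependent k b → LinearIndependent Ω (ev ∘ b)

/-- The span over the extension of the image. -/
def evSpan (X : Submodule k V) : Submodule Ω (κ → Ω) := Submodule.span Ω (ev '' X)

theorem evSpan_mono {X Y : Submodule k V} (h : X ≤ Y) : evSpan ev X ≤ evSpan ev Y :=
  Submodule.span_mono (Set.image_mono h)

theorem mem_evSpan {X : Submodule k V} {x : V} (hx : x ∈ X) : ev x ∈ evSpan ev X :=
  Submodule.subset_span ⟨x, hx, rfl⟩

theorem evSpan_eq_span {ι : Type*} {X : Submodule k V} (b : ι → V) (hb : ∀ i, b i ∈ X)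
    (hspan : X ≤ Submodule.span k (Set.range b)) :
    evSpan ev X = Submodule.span Ω (Set.range (ev ∘ b)) := by
  refine le_antisymm (Submodule.span_le.mpr ?_) (Submodule.span_le.mpr ?_)
  · rintro _ ⟨x, hx, rfl⟩
    have h := Submodule.mem_map_of_mem (f := ev) (hspan hx)
    rw [Submodule.map_span, ← Set.range_comp] at h
    exact Submodule.span_le_restrictScalars k Ω _ h
  · rintro _ ⟨i, rfl⟩
    exact mem_evSpan ev (hb i)

theorem evSpan_sup (X Y : Submodule k V) : evSpan ev (X ⊔ Y) = evSpan ev X ⊔ evSpan ev Y := by
  refine le_antisymm (Submodule.span_le.mpr ?_)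
    (sup_le (evSpan_mono ev le_sup_left) (evSpan_mono ev le_sup_right))
  rintro _ ⟨z, hz, rfl⟩
  obtain ⟨x, hx, y, hy, rfl⟩ := Submodule.mem_sup.mp hz
  rw [map_add]
  exact Submodule.add_mem_sup (mem_evSpan ev hx) (mem_evSpan ev hy)

theorem evSpan_finiteDimensional (X : Submodule k V) [FiniteDimensional k X] :
    FiniteDimensional Ω (evSpan ev X) := by
  let b := Module.finBasis k X
  rw [evSpan_eq_span ev (fun i => (b i : V)) (fun i => (b i).2) (fun x hx => by
    have h := congrArg Subtype.val (b.sum_repr ⟨x, hx⟩)
    simp only [AddSubmonoidClass.coe_finsetSum, SetLike.val_smul] at h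
    rw [← h]
    exact sum_mem fun i _ => Submodule.smul_mem _ _ (Submodule.subset_span ⟨i, rfl⟩))]
  exact FiniteDimensional.span_of_finite Ω (Set.finite_range _)

variable {ev}

theorem InjOver.mono {S T : Submodule k V} (h : InjOver ev S) (hle : T ≤ S) : InjOver ev T :=
  fun _ b hb hli => h b (fun i => hle (hb i)) hli

theorem span_finBasis (X : Submodule k V) [FiniteDimensional k X] :
    Submodule.span k (Set.range fun i => ((Module.finBasis k X) i : V)) = X := by
  rw [show (fun i => ((Module.finBasis k X) i : V)) = X.subtype ∘ Module.finBasis k X from rfl,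
    Set.range_comp, ← Submodule.map_span, Basis.span_eq, Submodule.map_subtype_top]

theorem finrank_evSpan {S X : Submodule k V} (h : InjOver ev S) (hX : X ≤ S)
    [FiniteDimensional k X] : finrank Ω (evSpan ev X) = finrank k X := by
  let b := Module.finBasis k X
  rw [evSpan_eq_span ev (fun i => (b i : V)) (fun i => (b i).2) (span_finBasis X).ge,
    finrank_span_eq_card (h _ (fun i => hX (b i).2)
      (b.linearIndependent.map' X.subtype X.ker_subtype)), Fintype.card_fin]

/-- It is enough to test one spanning family. -/
theorem injOver_of_span {n : ℕ} {S : Submodule k V} (b : Fin n → V) (hb : ∀ i, b i ∈ S)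
    (hspan : S ≤ Submodule.span k (Set.range b)) (hli : LinearIndependent Ω (ev ∘ b)) :
    InjOver ev S := by
  classical
  intro m c hc hcli
  have hbli : LinearIndependent k b :=
    LinearIndependent.of_comp ev (hli.restrict_scalars' k)
  have hSeq : Submodule.span k (Set.range b) = S :=
    le_antisymm (Submodule.span_le.mpr (Set.range_subset_iff.mpr hb)) hspan
  have : FiniteDimensional k S := hSeq ▸ FiniteDimensional.span_of_finite k (Set.finite_range b)
  have hdim : finrank k S = n := by
    rw [← hSeq, finrank_span_eq_card hbli, Fintype.card_fin]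
  let c' : Fin m → S := fun i => ⟨c i, hc i⟩
  have hc'li : LinearIndependent k c' := LinearIndependent.of_comp S.subtype hcli
  let B := Basis.extend hc'li.linearIndepOn_id
  have : Finite (hc'li.linearIndepOn_id.extend (Set.subset_univ (Set.range c'))) :=
    Module.Finite.finite_basis B
  let _ := Fintype.ofFinite (hc'li.linearIndepOn_id.extend (Set.subset_univ (Set.range c')))
  have hcard : Fintype.card (hc'li.linearIndepOn_id.extend (Set.subset_univ (Set.range c'))) =
      n := by
    rw [← hdim, Module.finrank_eq_card_basis B]
  have h1 : LinearIndependent Ω fun x => ev (B x : V) := by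
    rw [linearIndependent_iff_card_eq_finrank_span, hcard]
    have e := evSpan_eq_span ev (fun x => (B x : V)) (fun x => (B x).2) (X := S) (by
      rw [show (fun x => (B x : V)) = S.subtype ∘ B from rfl, Set.range_comp, ← Submodule.map_span,
        Basis.span_eq, Submodule.map_subtype_top])
    rw [Set.finrank, show (fun x => ev (B x : V)) = ev ∘ fun x => (B x : V) from rfl, ← e,
      evSpan_eq_span ev b hb hspan, finrank_span_eq_card hli, Fintype.card_fin]
  let g : Fin m → hc'li.linearIndepOn_id.extend (Set.subset_univ (Set.range c')) := fun i =>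
    ⟨c' i, hc'li.linearIndepOn_id.subset_extend _ ⟨i, rfl⟩⟩
  have hg : Function.Injective g := fun i j h => hc'li.injective (congrArg Subtype.val h)
  convert h1.comp g hg using 1
  funext i
  show ev (c i) = ev (B (g i) : V)
  rw [Basis.extend_apply_self]

/-- Images of subspaces intersect as the subspaces. -/
theorem evSpan_inf {S X Y : Submodule k V} [FiniteDimensional k S] (h : InjOver ev S)
    (hX : X ≤ S) (hY : Y ≤ S) : evSpan ev X ⊓ evSpan ev Y = evSpan ev (X ⊓ Y) := by
  have : FiniteDimensional k X := Submodule.finiteDimensional_of_le hX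
  have : FiniteDimensional k Y := Submodule.finiteDimensional_of_le hY
  have := evSpan_finiteDimensional ev X
  have := evSpan_finiteDimensional ev Y
  refine (Submodule.eq_of_le_of_finrank_le
    (le_inf (evSpan_mono ev inf_le_left) (evSpan_mono ev inf_le_right)) ?_).symm
  have h1 := Submodule.finrank_sup_add_finrank_inf_eq (evSpan ev X) (evSpan ev Y)
  rw [← evSpan_sup, finrank_evSpan h hX, finrank_evSpan h hY,
    finrank_evSpan h (sup_le hX hY)] at h1
  have h2 := Submodule.finrank_sup_add_finrank_inf_eq X Y
  rw [finrank_evSpan h (inf_le_left.trans hX)]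
  omega

end SpanOver

end Fermat.Agent.OrdinaryAtP.Coord

end
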